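import Mathlib.NumberTheory.ModularForms.CongruenceSubgroups
import Mathlib.LinearAlgebra.Matrix.FixedDetMatrices
import Mathlib.GroupTheory.GroupAction.Quotient
import Mathlib.GroupTheory.Schreier
import Mathlib.RingTheory.Coprime.Lemmas
import Fermat.Prelude.Def_ModularCurve_GenusNumerics

/-!
# The coset space `SL(2, ℤ) ⧸ Γ₀(N)`

Coset criterion, index `= dedekindPsi N`, and fixed points of `S` and `S * T`.
-/

open scoped MatrixGroups
open CongruenceSubgroup ModularGroup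
open Matrix.SpecialLinearGroup (coe_mul)

namespace Fermat.Agent.Gamma0

/-- The element `S * T` of order three in `PSL(2, ℤ)`. -/
def ST : SL(2, ℤ) := ModularGroup.S * ModularGroup.T

theorem coe_ST : (ST : Matrix (Fin 2) (Fin 2) ℤ) = !![0, -1; 1, 1] := by
  simp [ST, coe_mul]

theorem det_eq (g : SL(2, ℤ)) : g 0 0 * g 1 1 - g 0 1 * g 1 0 = 1 := by
  have h := g.2
  rwa [Matrix.det_fin_two] at h

theorem isCoprime_col (g : SL(2, ℤ)) : IsCoprime (g 0 0) (g 1 0) :=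
  ⟨g 1 1, -g 0 1, by linear_combination det_eq g⟩

theorem exists_col {a c : ℤ} (h : IsCoprime a c) : ∃ g : SL(2, ℤ), g 0 0 = a ∧ g 1 0 = c := by
  obtain ⟨x, y, hxy⟩ := h
  exact ⟨⟨!![a, -y; c, x], by rw [Matrix.det_fin_two_of]; linear_combination hxy⟩, rfl, rfl⟩

theorem inv_mul_apply_one_zero (g h : SL(2, ℤ)) :
    (g⁻¹ * h) 1 0 = g 0 0 * h 1 0 - g 1 0 * h 0 0 := by
  simp [Matrix.mul_apply, Fin.sum_univ_two, Matrix.adjugate_fin_two,
    Matrix.SpecialLinearGroup.coe_inv]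
  ring

/-- Two cosets in `SL(2, ℤ) ⧸ Γ₀(N)` agree iff the first columns give the same point of
`P¹(ℤ/N)`. -/
theorem mk_eq_mk_iff {N : ℕ} (g h : SL(2, ℤ)) :
    ((g : SL(2, ℤ) ⧸ Gamma0 N) = h) ↔
      ((g 0 0 * h 1 0 - g 1 0 * h 0 0 : ℤ) : ZMod N) = 0 := by
  rw [QuotientGroup.eq, Gamma0_mem, inv_mul_apply_one_zero]

theorem neg_one_mem_Gamma0 (N : ℕ) : (-1 : SL(2, ℤ)) ∈ Gamma0 N := by
  simp [Gamma0_mem]

theorem Gamma0_le_of_dvd {M N : ℕ} (h : M ∣ N) : Gamma0 N ≤ Gamma0 M := by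
  intro g hg
  rw [Gamma0_mem, ZMod.intCast_zmod_eq_zero_iff_dvd] at hg ⊢
  exact (Int.natCast_dvd_natCast.2 h).trans hg

theorem Gamma0_fg (N : ℕ) [NeZero N] : (Gamma0 N).FG := by
  have : Group.FG SL(2, ℤ) := Group.fg_iff.2
    ⟨{ModularGroup.S, ModularGroup.T}, SpecialLinearGroup.SL2Z_generators, Set.toFinite _⟩
  have := Subgroup.fg_of_index_ne_zero (H := Gamma0 N)
  exact (Group.fg_iff_subgroup_fg _).1 inferInstance

section Index

private theorem dvd_Ncol {N : ℕ} {g : SL(2, ℤ)} (hg : g ∈ Gamma0 N) : (N : ℤ) ∣ g 1 0 := by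
  rwa [Gamma0_mem, ZMod.intCast_zmod_eq_zero_iff_dvd] at hg

private theorem quot_eq_iff {M N : ℕ} (g h : Gamma0 N) :
    ((g : Gamma0 N ⧸ (Gamma0 M).subgroupOf (Gamma0 N)) = h) ↔
      (M : ℤ) ∣ (g : SL(2, ℤ)) 0 0 * (h : SL(2, ℤ)) 1 0
        - (g : SL(2, ℤ)) 1 0 * (h : SL(2, ℤ)) 0 0 := by
  rw [QuotientGroup.eq, Subgroup.mem_subgroupOf, ← ZMod.intCast_zmod_eq_zero_iff_dvd,
    ← inv_mul_apply_one_zero]
  rfl

/-- lower triangular element of `Γ₀(N)` -/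
private def lowerElt (N : ℕ) (j : ℤ) : Gamma0 N :=
  ⟨⟨!![1, 0; N * j, 1], by simp [Matrix.det_fin_two_of]⟩, by simp [Gamma0_mem]⟩

variable {p N : ℕ}

private theorem lowerElt_injective [Fact p.Prime] [NeZero N] :
    Function.Injective (fun j : ZMod p =>
      (lowerElt N j.val : Gamma0 N ⧸ (Gamma0 (p * N)).subgroupOf (Gamma0 N))) := by
  intro j k h
  rw [quot_eq_iff] at h
  simp only [lowerElt, Matrix.of_apply, Matrix.cons_val', Matrix.cons_val_zero,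
    Matrix.cons_val_one, Matrix.empty_val', Matrix.cons_val_fin_one, one_mul, mul_one] at h
  rw [← mul_sub, Nat.cast_mul, mul_comm (p : ℤ), mul_dvd_mul_iff_left
    (Int.natCast_ne_zero.2 (NeZero.ne N)), ← ZMod.intCast_zmod_eq_zero_iff_dvd] at h
  push_cast [ZMod.natCast_zmod_val] at h
  exact (sub_eq_zero.1 h).symm

private theorem exists_lowerElt [Fact p.Prime] (g : Gamma0 N)
    (ha : ((g : SL(2, ℤ)) 0 0 : ZMod p) ≠ 0) :
    ∃ j : ZMod p,
      (lowerElt N j.val : Gamma0 N ⧸ (Gamma0 (p * N)).subgroupOf (Gamma0 N)) = g := by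
  obtain ⟨c', hc'⟩ := dvd_Ncol g.2
  refine ⟨(c' : ZMod p) * ((g : SL(2, ℤ)) 0 0 : ZMod p)⁻¹, ?_⟩
  rw [quot_eq_iff]
  simp only [lowerElt, Matrix.of_apply, Matrix.cons_val', Matrix.cons_val_zero,
    Matrix.cons_val_one, Matrix.empty_val', Matrix.cons_val_fin_one, one_mul]
  rw [hc', mul_assoc, ← mul_sub, Nat.cast_mul, mul_comm (p : ℤ)]
  refine mul_dvd_mul_left _ ?_
  rw [← ZMod.intCast_zmod_eq_zero_iff_dvd]
  push_cast [ZMod.natCast_zmod_val]
  rw [inv_mul_cancel_right₀ ha, sub_self]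

theorem relIndex_of_dvd (hp : p.Prime) [NeZero N] (h : p ∣ N) :
    (Gamma0 (p * N)).relIndex (Gamma0 N) = p := by
  have := Fact.mk hp
  rw [Subgroup.relIndex, Subgroup.index]
  refine (Nat.card_eq_of_bijective _ ⟨lowerElt_injective (p := p) (N := N), ?_⟩).symm.trans
    (Nat.card_zmod p)
  intro q
  induction q using QuotientGroup.induction_on with | _ g => ?_
  refine exists_lowerElt g fun ha => ?_
  rw [ZMod.intCast_zmod_eq_zero_iff_dvd] at ha
  have hc : (p : ℤ) ∣ (g : SL(2, ℤ)) 1 0 := (Int.natCast_dvd_natCast.2 h).trans (dvd_Ncol g.2)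
  have := (isCoprime_col (g : SL(2, ℤ))).isUnit_of_dvd' ha hc
  rw [Int.isUnit_iff] at this
  rcases this with this | this <;> have := hp.two_le <;> omega

theorem relIndex_of_not_dvd (hp : p.Prime) [NeZero N] (h : ¬ p ∣ N) :
    (Gamma0 (p * N)).relIndex (Gamma0 N) = p + 1 := by
  have := Fact.mk hp
  obtain ⟨e0, hp0, hN0⟩ := exists_col (a := (p : ℤ)) (c := (N : ℤ))
    (Nat.isCoprime_iff_coprime.2 ((Nat.Prime.coprime_iff_not_dvd hp).2 h))
  have he : e0 ∈ Gamma0 N := by simp [Gamma0_mem, hN0]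
  set e : Gamma0 N ⧸ (Gamma0 (p * N)).subgroupOf (Gamma0 N) :=
    QuotientGroup.mk (⟨e0, he⟩ : Gamma0 N) with he_def
  rw [Subgroup.relIndex, Subgroup.index]
  refine (Nat.card_eq_of_bijective (fun o : Option (ZMod p) => o.elim e fun j =>
    ((lowerElt N j.val : Gamma0 N) : Gamma0 N ⧸ (Gamma0 (p * N)).subgroupOf (Gamma0 N)))
      ⟨?_, ?_⟩).symm.trans ?_
  · have key : ∀ j : ZMod p, e ≠
        ((lowerElt N j.val : Gamma0 N) : Gamma0 N ⧸ (Gamma0 (p * N)).subgroupOf (Gamma0 N)) := by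
      intro j hj
      rw [he_def, quot_eq_iff] at hj
      simp only [lowerElt, hp0, hN0, Matrix.of_apply, Matrix.cons_val', Matrix.cons_val_zero,
        Matrix.cons_val_one, Matrix.empty_val', Matrix.cons_val_fin_one, mul_one] at hj
      rw [show (p : ℤ) * ((N : ℤ) * (j.val : ℤ)) - (N : ℤ) = (N : ℤ) * ((p : ℤ) * (j.val : ℤ) - 1)
        by ring, Nat.cast_mul, mul_comm (p : ℤ), mul_dvd_mul_iff_left
        (Int.natCast_ne_zero.2 (NeZero.ne N)), ← ZMod.intCast_zmod_eq_zero_iff_dvd] at hj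
      push_cast [ZMod.natCast_self, zero_mul, zero_sub] at hj
      exact one_ne_zero (neg_eq_zero.1 hj)
    intro o o' ho
    cases o <;> cases o'
    · rfl
    · exact absurd ho (key _)
    · exact absurd ho.symm (key _)
    · exact congrArg some (lowerElt_injective ho)
  · intro q
    induction q using QuotientGroup.induction_on with | _ g => ?_
    by_cases ha : ((g : SL(2, ℤ)) 0 0 : ZMod p) = 0
    · refine ⟨none, ?_⟩
      show e = _
      rw [he_def, quot_eq_iff]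
      simp only [hp0, hN0]
      rw [ZMod.intCast_zmod_eq_zero_iff_dvd] at ha
      push_cast
      refine dvd_sub (mul_dvd_mul_left _ (dvd_Ncol g.2)) ?_
      rw [mul_comm (p : ℤ)]
      exact mul_dvd_mul_left _ ha
    · obtain ⟨j, hj⟩ := exists_lowerElt g ha
      exact ⟨some j, hj⟩
  · simp

theorem dedekindPsi_mul_of_dvd (hp : p.Prime) (h : p ∣ N) :
    ModularCurve.dedekindPsi (p * N) = p * ModularCurve.dedekindPsi N := by
  rcases eq_or_ne N 0 with rfl | hN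
  · simp [ModularCurve.dedekindPsi]
  have hset : (p * N).divisors.filter Squarefree = N.divisors.filter Squarefree := by
    ext d
    simp only [Finset.mem_filter, Nat.mem_divisors, and_congr_left_iff]
    intro hd
    refine ⟨fun ⟨hdiv, _⟩ => ⟨?_, hN⟩,
      fun ⟨hdiv, _⟩ => ⟨hdiv.mul_left p, mul_ne_zero hp.ne_zero hN⟩⟩
    by_cases hpd : p ∣ d
    · obtain ⟨e, rfl⟩ := hpd
      have he : ¬ p ∣ e := fun hpe =>
        hp.not_isUnit (hd p (mul_dvd_mul_left p hpe))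
      exact (Nat.Coprime.mul_dvd_of_dvd_of_dvd ((hp.coprime_iff_not_dvd).2 he) h
        (Nat.dvd_of_mul_dvd_mul_left hp.pos hdiv))
    · exact ((hp.coprime_iff_not_dvd).2 hpd).symm.dvd_of_dvd_mul_left hdiv
  rw [ModularCurve.dedekindPsi, ModularCurve.dedekindPsi, hset, Finset.mul_sum]
  refine Finset.sum_congr rfl fun d hd => ?_
  rw [Finset.mem_filter, Nat.mem_divisors] at hd
  rw [Nat.mul_div_assoc _ hd.1.1]

theorem dedekindPsi_mul_of_not_dvd (hp : p.Prime) (h : ¬ p ∣ N) :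
    ModularCurve.dedekindPsi (p * N) = (p + 1) * ModularCurve.dedekindPsi N := by
  have hN : N ≠ 0 := fun h0 => h (h0 ▸ dvd_zero p)
  have hset : (p * N).divisors.filter Squarefree =
      N.divisors.filter Squarefree ∪ (N.divisors.filter Squarefree).image (p * ·) := by
    ext d
    simp only [Finset.mem_filter, Nat.mem_divisors, Finset.mem_union, Finset.mem_image]
    constructor
    · rintro ⟨⟨hdiv, -⟩, hd⟩
      by_cases hpd : p ∣ d
      · obtain ⟨e, rfl⟩ := hpd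
        exact Or.inr ⟨e, ⟨⟨Nat.dvd_of_mul_dvd_mul_left hp.pos hdiv, hN⟩,
          hd.squarefree_of_dvd (dvd_mul_left e p)⟩, rfl⟩
      · exact Or.inl ⟨⟨((hp.coprime_iff_not_dvd).2 hpd).symm.dvd_of_dvd_mul_left hdiv, hN⟩, hd⟩
    · rintro (⟨⟨hdiv, -⟩, hd⟩ | ⟨e, ⟨⟨hdiv, -⟩, he⟩, rfl⟩)
      · exact ⟨⟨hdiv.mul_left p, mul_ne_zero hp.ne_zero hN⟩, hd⟩
      · refine ⟨⟨mul_dvd_mul_left p hdiv, mul_ne_zero hp.ne_zero hN⟩, ?_⟩
        rw [Nat.squarefree_mul_iff]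
        exact ⟨(hp.coprime_iff_not_dvd).2 fun hpe => h (hpe.trans hdiv), hp.prime.squarefree, he⟩
  have hdisj : Disjoint (N.divisors.filter Squarefree)
      ((N.divisors.filter Squarefree).image (p * ·)) := by
    rw [Finset.disjoint_left]
    intro d hd hd'
    simp only [Finset.mem_filter, Nat.mem_divisors, Finset.mem_image] at hd hd'
    obtain ⟨e, -, rfl⟩ := hd'
    exact h ((dvd_mul_right p e).trans hd.1.1)
  rw [ModularCurve.dedekindPsi, ModularCurve.dedekindPsi, hset, Finset.sum_union hdisj,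
    Finset.sum_image fun x _ y _ hxy => Nat.eq_of_mul_eq_mul_left hp.pos hxy, add_mul, one_mul,
    Finset.mul_sum]
  congr 1
  · refine Finset.sum_congr rfl fun d hd => ?_
    rw [Finset.mem_filter, Nat.mem_divisors] at hd
    rw [Nat.mul_div_assoc _ hd.1.1]
  · exact Finset.sum_congr rfl fun d hd => Nat.mul_div_mul_left _ _ hp.pos

end Index

/-- `[SL(2, ℤ) : Γ₀(N)] = ψ(N)`. -/
theorem index_eq_dedekindPsi (N : ℕ) [NeZero N] :
    (Gamma0 N).index = ModularCurve.dedekindPsi N := by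
  have hN0 : N ≠ 0 := NeZero.ne N
  clear ‹NeZero N›
  induction N using Nat.strong_induction_on with
  | _ N ih =>
    rcases eq_or_ne N 1 with rfl | h1
    · rw [ModularCurve.dedekindPsi_one, Subgroup.index_eq_one, eq_top_iff]
      intro g _
      rw [Gamma0_mem]
      exact Subsingleton.elim _ _
    obtain ⟨p, hp, hpN⟩ := Nat.exists_prime_and_dvd h1
    obtain ⟨a, rfl⟩ := hpN
    have ha0 : a ≠ 0 := right_ne_zero_of_mul hN0
    have ha : NeZero a := ⟨ha0⟩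
    rw [← Subgroup.relIndex_mul_index (Gamma0_le_of_dvd (dvd_mul_left a p)),
      ih a (lt_mul_left (NeZero.pos a) hp.one_lt) ha0]
    by_cases h : p ∣ a
    · rw [relIndex_of_dvd hp h, dedekindPsi_mul_of_dvd hp h]
    · rw [relIndex_of_not_dvd hp h, dedekindPsi_mul_of_not_dvd hp h]

theorem natCard_quotient (N : ℕ) [NeZero N] :
    Nat.card (SL(2, ℤ) ⧸ Gamma0 N) = ModularCurve.dedekindPsi N :=
  index_eq_dedekindPsi N

section Fixed

variable {N : ℕ}

/-- an element with first column `(a, 1)` -/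
def colOne (a : ℤ) : SL(2, ℤ) := ⟨!![a, -1; 1, 0], by simp [Matrix.det_fin_two_of]⟩

theorem colOne_injective [NeZero N] :
    Function.Injective fun x : ZMod N => (colOne x.val : SL(2, ℤ) ⧸ Gamma0 N) := by
  intro x y h
  rw [mk_eq_mk_iff] at h
  simpa [colOne, sub_eq_zero] using h

theorem mk_eq_colOne [NeZero N] (g : SL(2, ℤ)) (u : (ZMod N)ˣ) (hu : (g 1 0 : ZMod N) = u) :
    (colOne (((g 0 0 : ZMod N) * ↑u⁻¹ : ZMod N).val) : SL(2, ℤ) ⧸ Gamma0 N) = g := by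
  rw [mk_eq_mk_iff]
  simp [colOne, hu, mul_assoc]

theorem S_smul_eq_iff (g : SL(2, ℤ)) :
    ModularGroup.S • (g : SL(2, ℤ) ⧸ Gamma0 N) = g ↔
      (g 0 0 : ZMod N) ^ 2 + (g 1 0 : ZMod N) ^ 2 = 0 := by
  rw [MulAction.Quotient.smul_coe, smul_eq_mul, mk_eq_mk_iff, ← neg_eq_zero]
  simp [Matrix.mul_apply, Fin.sum_univ_two]
  ring_nf

theorem ST_smul_eq_iff (g : SL(2, ℤ)) :
    ST • (g : SL(2, ℤ) ⧸ Gamma0 N) = g ↔
      (g 0 0 : ZMod N) ^ 2 + (g 0 0 : ZMod N) * (g 1 0 : ZMod N) + (g 1 0 : ZMod N) ^ 2 = 0 := by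
  rw [MulAction.Quotient.smul_coe, smul_eq_mul, mk_eq_mk_iff, ← neg_eq_zero]
  simp [coe_ST, Matrix.mul_apply, Fin.sum_univ_two]
  ring_nf

theorem natCard_fixedBy_S (N : ℕ) [NeZero N] :
    Nat.card (MulAction.fixedBy (SL(2, ℤ) ⧸ Gamma0 N) ModularGroup.S) = ModularCurve.nuTwo N := by
  symm
  refine Nat.card_eq_of_bijective (fun x : {x : ZMod N // x ^ 2 + 1 = 0} =>
    ⟨(colOne x.1.val : SL(2, ℤ) ⧸ Gamma0 N), ?_⟩) ⟨?_, ?_⟩
  · rw [MulAction.mem_fixedBy, S_smul_eq_iff]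
    simpa [colOne] using x.2
  · intro x y h
    exact Subtype.ext (colOne_injective (congrArg Subtype.val h))
  · rintro ⟨q, hq⟩
    induction q using QuotientGroup.induction_on with | _ g => ?_
    rw [MulAction.mem_fixedBy, S_smul_eq_iff] at hq
    have hd : ((g 0 0 : ℤ) : ZMod N) * (g 1 1 : ℤ) - (g 0 1 : ℤ) * (g 1 0 : ℤ) = 1 := by
      exact_mod_cast congrArg (Int.cast : ℤ → ZMod N) (det_eq g)
    have hu : IsUnit (g 1 0 : ZMod N) := isUnit_of_dvd_one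
      ⟨-(g 1 1 : ZMod N) ^ 2 * g 1 0 - 2 * g 0 0 * g 1 1 * g 0 1 + (g 0 1 : ZMod N) ^ 2 * g 1 0, by
        linear_combination (-((g 0 0 : ZMod N) * g 1 1 - g 0 1 * g 1 0 + 1)) * hd
          + ((g 1 1 : ZMod N) ^ 2) * hq⟩
    obtain ⟨u, hu⟩ := hu
    refine ⟨⟨(g 0 0 : ZMod N) * ↑u⁻¹, ?_⟩, Subtype.ext (mk_eq_colOne g u hu.symm)⟩
    rw [← hu] at hq
    linear_combination ((↑u⁻¹ : ZMod N) ^ 2) * hq - ((u : ZMod N) * ↑u⁻¹ + 1) * u.mul_inv

theorem natCard_fixedBy_ST (N : ℕ) [NeZero N] :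
    Nat.card (MulAction.fixedBy (SL(2, ℤ) ⧸ Gamma0 N) ST) = ModularCurve.nuThree N := by
  symm
  refine Nat.card_eq_of_bijective (fun x : {x : ZMod N // x ^ 2 + x + 1 = 0} =>
    ⟨(colOne x.1.val : SL(2, ℤ) ⧸ Gamma0 N), ?_⟩) ⟨?_, ?_⟩
  · rw [MulAction.mem_fixedBy, ST_smul_eq_iff]
    simpa [colOne] using x.2
  · intro x y h
    exact Subtype.ext (colOne_injective (congrArg Subtype.val h))
  · rintro ⟨q, hq⟩
    induction q using QuotientGroup.induction_on with | _ g => ?_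
    rw [MulAction.mem_fixedBy, ST_smul_eq_iff] at hq
    have hd : ((g 0 0 : ℤ) : ZMod N) * (g 1 1 : ℤ) - (g 0 1 : ℤ) * (g 1 0 : ℤ) = 1 := by
      exact_mod_cast congrArg (Int.cast : ℤ → ZMod N) (det_eq g)
    have hu : IsUnit (g 1 0 : ZMod N) := isUnit_of_dvd_one
      ⟨-(g 1 1 : ZMod N) ^ 2 * (g 0 0 + g 1 0) - 2 * g 0 0 * g 1 1 * g 0 1
          + (g 0 1 : ZMod N) ^ 2 * g 1 0, by
        linear_combination (-((g 0 0 : ZMod N) * g 1 1 - g 0 1 * g 1 0 + 1)) * hd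
          + ((g 1 1 : ZMod N) ^ 2) * hq⟩
    obtain ⟨u, hu⟩ := hu
    refine ⟨⟨(g 0 0 : ZMod N) * ↑u⁻¹, ?_⟩, Subtype.ext (mk_eq_colOne g u hu.symm)⟩
    rw [← hu] at hq
    linear_combination ((↑u⁻¹ : ZMod N) ^ 2) * hq
      - ((g 0 0 : ZMod N) * ↑u⁻¹ + (u : ZMod N) * ↑u⁻¹ + 1) * u.mul_inv

end Fixed

end Fermat.Agent.Gamma0
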