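import Mathlib.Algebra.BigOperators.Pi
import Mathlib.GroupTheory.Index
import Mathlib.GroupTheory.Perm.Cycle.Type
import Mathlib.GroupTheory.GroupAction.Period
import Mathlib.SetTheory.Cardinal.NatCard
import Mathlib.Data.ZMod.QuotientGroup
import Mathlib.GroupTheory.GroupAction.Defs
import Mathlib.Data.Finset.Union
import Mathlib.Tactic.Ring
import Mathlib.Tactic.Abel

/-!
# Sums over the orbits of a single group element
-/

namespace Fermat.Agent.Gamma0

open Finset

variable {G : Type*} [Group G] {X : Type*} [MulAction G X] (g : G) {A : Type*} [AddCommGroup A]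

/-- orbits of the cyclic group generated by `g` -/
abbrev Orb (X : Type*) [MulAction G X] (g : G) : Type _ :=
  MulAction.orbitRel.Quotient (Subgroup.zpowers g) X

theorem orb_mk_eq_iff (x y : X) :
    (Quotient.mk'' x : Orb X g) = Quotient.mk'' y ↔ ∃ k : ℤ, g ^ k • x = y := by
  rw [eq_comm, Quotient.eq'', MulAction.orbitRel_apply]
  constructor
  · rintro ⟨⟨t, k, rfl⟩, h⟩
    exact ⟨k, h⟩
  · rintro ⟨k, h⟩
    exact ⟨⟨_, k, rfl⟩, h⟩

theorem orb_mk_smul (x : X) : (Quotient.mk'' (g • x) : Orb X g) = Quotient.mk'' x :=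
  ((orb_mk_eq_iff g x (g • x)).2 ⟨1, by rw [zpow_one]⟩).symm

/-- `f ↦ f - f ∘ g` -/
def diff : (X → A) →+ (X → A) where
  toFun f x := f x - f (g • x)
  map_zero' := funext fun _ => sub_zero 0
  map_add' f f' := funext fun x => by simp only [Pi.add_apply]; abel

theorem diff_apply (f : X → A) (x : X) : diff g f x = f x - f (g • x) := rfl

theorem mem_ker_diff {f : X → A} :
    f ∈ (diff g : (X → A) →+ (X → A)).ker ↔ ∀ x, f (g • x) = f x := by
  simp [AddMonoidHom.mem_ker, funext_iff, diff_apply, sub_eq_zero, eq_comm]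

variable [Finite X]

/-- the fibre of an orbit -/
noncomputable def fibre (q : Orb X g) : Finset X :=
  (Set.toFinite {x : X | (Quotient.mk'' x : Orb X g) = q}).toFinset

@[simp]
theorem mem_fibre {q : Orb X g} {x : X} : x ∈ fibre g q ↔ (Quotient.mk'' x : Orb X g) = q := by
  simp [fibre]

/-- sum over each orbit -/
noncomputable def orbitSum : (X → A) →+ (Orb X g → A) where
  toFun v q := ∑ x ∈ fibre g q, v x
  map_zero' := funext fun _ => Finset.sum_const_zero
  map_add' _ _ := funext fun _ => Finset.sum_add_distrib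

theorem orbitSum_apply (v : X → A) (q : Orb X g) : orbitSum g v q = ∑ x ∈ fibre g q, v x := rfl

theorem orbitSum_comp_smul (f : X → A) :
    orbitSum g (fun x => f (g • x)) = orbitSum g f := by
  funext q
  refine Finset.sum_equiv (MulAction.toPerm g) (fun x => ?_) (fun x _ => rfl)
  simp [orb_mk_smul]

theorem orbitSum_diff (f : X → A) : orbitSum g (diff g f) = 0 := by
  have : diff g f = f - fun x => f (g • x) := rfl
  rw [this, map_sub, orbitSum_comp_smul, sub_self]

theorem orbitSum_single [DecidableEq X] [DecidableEq (Orb X g)] (x : X) (a : A) :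
    orbitSum g (Pi.single x a) = Pi.single (Quotient.mk'' x : Orb X g) a := by
  funext q
  rw [orbitSum_apply, Pi.single_apply]
  simp only [Finset.sum_pi_single']
  simp only [mem_fibre, eq_comm]

theorem orbitSum_surjective : Function.Surjective (orbitSum g : (X → A) →+ (Orb X g → A)) := by
  classical
  intro b
  refine ⟨fun x => if x = (Quotient.mk'' x : Orb X g).out then b (Quotient.mk'' x) else 0,
    funext fun q => ?_⟩
  have h : (Quotient.mk'' q.out : Orb X g) = q := Quotient.out_eq' q
  rw [orbitSum_apply, Finset.sum_eq_single q.out]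
  · rw [h, if_pos rfl]
  · intro x hx hne
    rw [mem_fibre] at hx
    rw [if_neg fun he => hne (he.trans (by rw [hx]))]
  · intro hq
    exact absurd ((mem_fibre g).2 h) hq

theorem period_pos' (x : X) : 0 < MulAction.period g x := by
  set σ : Equiv.Perm X := MulAction.toPermHom G X g with hσ
  refine MulAction.period_pos_of_fixed (n := orderOf σ) (orderOf_pos σ) ?_
  have h : (MulAction.toPermHom G X (g ^ orderOf σ)) x = x := by
    rw [map_pow, ← hσ, pow_orderOf_eq_one]
    rfl
  exact h

theorem orbitSum_mk_eq_sum_range (v : X → A) (x : X) :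
    orbitSum g v (Quotient.mk'' x) = ∑ i ∈ range (MulAction.period g x), v (g ^ i • x) := by
  classical
  rw [orbitSum_apply]
  have hp : 0 < MulAction.period g x := period_pos' g x
  refine (Finset.sum_bij (fun i _ => g ^ i • x) (fun i _ => ?_) ?_ ?_ (fun _ _ => rfl)).symm
  · rw [mem_fibre, eq_comm, orb_mk_eq_iff]
    exact ⟨i, by rw [zpow_natCast]⟩
  · intro i hi j hj hij
    rw [Finset.mem_range] at hi hj
    have h : g ^ ((j : ℤ) - i) • x = x := by
      rw [sub_eq_neg_add, zpow_add, zpow_neg, mul_smul, zpow_natCast, zpow_natCast, ← hij,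
        inv_smul_smul]
    rw [MulAction.zpow_smul_eq_iff_period_dvd] at h
    have := Int.eq_zero_of_abs_lt_dvd h (by rw [abs_lt]; omega)
    omega
  · intro y hy
    rw [mem_fibre, eq_comm, orb_mk_eq_iff] at hy
    obtain ⟨k, rfl⟩ := hy
    refine ⟨(k % (MulAction.period g x : ℤ)).toNat, ?_, ?_⟩
    · rw [Finset.mem_range]
      have := Int.emod_lt_of_pos k (by exact_mod_cast hp : (0 : ℤ) < MulAction.period g x)
      omega
    · have h0 : (0 : ℤ) ≤ k % (MulAction.period g x : ℤ) :=
        Int.emod_nonneg _ (by exact_mod_cast hp.ne')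
      rw [← zpow_natCast, Int.toNat_of_nonneg h0, MulAction.zpow_mod_period_smul]

omit [Finite X] in
theorem natCard_ker_diff :
    Nat.card (diff g : (X → A) →+ (X → A)).ker = Nat.card (Orb X g → A) := by
  refine Nat.card_eq_of_bijective
    (fun f : (diff g : (X → A) →+ (X → A)).ker => fun q : Orb X g => (f : X → A) q.out) ⟨?_, ?_⟩
  · intro f f' h
    have hinv : ∀ (φ : (diff g : (X → A) →+ (X → A)).ker) (x : X),
        (φ : X → A) x = (φ : X → A) (Quotient.mk'' x : Orb X g).out := by
      intro φ x
      have h1 : (Quotient.mk'' x : Orb X g) = Quotient.mk'' (Quotient.mk'' x : Orb X g).out :=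
        (Quotient.out_eq' _).symm
      obtain ⟨k, hk⟩ := (orb_mk_eq_iff g _ _).1 h1
      rw [← hk]
      have hφ := (mem_ker_diff g).1 φ.2
      clear hk h1
      induction k using Int.induction_on with
      | zero => rw [zpow_zero, one_smul]
      | succ k ih => rw [add_comm, zpow_add, zpow_one, mul_smul, hφ, ← ih]
      | pred k ih =>
        rw [ih, ← hφ (g ^ (-(k : ℤ) - 1) • x), ← mul_smul, ← zpow_one_add]
        ring_nf
    refine Subtype.ext (funext fun x => ?_)
    rw [hinv f x, hinv f' x]
    exact congrFun h _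
  · intro b
    refine ⟨⟨fun x => b (Quotient.mk'' x), (mem_ker_diff g).2 fun x => by rw [orb_mk_smul]⟩,
      funext fun q => ?_⟩
    exact congrArg b (Quotient.out_eq' q)

variable [Finite A]

omit [Finite A] in
theorem natCard_range_diff_mul :
    Nat.card (diff g : (X → A) →+ (X → A)).range * Nat.card A ^ Nat.card (Orb X g) =
      Nat.card A ^ Nat.card X := by
  rw [← Nat.card_fun, ← Nat.card_fun, ← natCard_ker_diff,
    ← AddSubgroup.index_mul_card (diff g : (X → A) →+ (X → A)).ker, AddSubgroup.index_ker]

theorem range_diff_eq_ker_orbitSum :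
    (diff g : (X → A) →+ (X → A)).range = (orbitSum g : (X → A) →+ (Orb X g → A)).ker := by
  have hle : (diff g : (X → A) →+ (X → A)).range ≤
      (orbitSum g : (X → A) →+ (Orb X g → A)).ker := by
    rintro _ ⟨f, rfl⟩
    exact orbitSum_diff g f
  refine AddSubgroup.eq_of_le_of_card_ge hle (le_of_eq ?_)
  have h := AddSubgroup.index_mul_card (orbitSum g : (X → A) →+ (Orb X g → A)).ker
  rw [AddSubgroup.index_ker, AddMonoidHom.range_eq_top_of_surjective _ (orbitSum_surjective g),
    Nat.card_congr AddSubgroup.topEquiv.toEquiv, Nat.card_fun, Nat.card_fun] at h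
  have h2 := natCard_range_diff_mul (X := X) (A := A) g
  rw [mul_comm] at h
  exact Nat.eq_of_mul_eq_mul_right (pow_pos Nat.card_pos _) (h.trans h2.symm)

theorem mem_range_diff_iff {v : X → A} :
    v ∈ (diff g : (X → A) →+ (X → A)).range ↔
      ∀ x, ∑ i ∈ range (MulAction.period g x), v (g ^ i • x) = 0 := by
  rw [range_diff_eq_ker_orbitSum, AddMonoidHom.mem_ker, funext_iff]
  refine ⟨fun h x => ?_, fun h q => ?_⟩
  · rw [← orbitSum_mk_eq_sum_range]
    exact h _
  · induction q using Quotient.inductionOn' with | h x => ?_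
    rw [orbitSum_mk_eq_sum_range]
    exact h x

section Count

omit [Finite A]

theorem sum_period [Fintype (Orb X g)] :
    ∑ q : Orb X g, MulAction.period g q.out = Nat.card X := by
  classical
  cases nonempty_fintype X
  rw [Nat.card_congr (MulAction.selfEquivSigmaOrbits (Subgroup.zpowers g) X), Nat.card_sigma]
  refine Finset.sum_congr rfl fun q _ => ?_
  rw [Nat.card_eq_fintype_card, ← MulAction.minimalPeriod_eq_card, MulAction.period_eq_minimalPeriod]

/-- counting orbits of an element of prime order -/
theorem card_add_mul_fixed {p : ℕ} (hp : p.Prime) (hpow : ∀ x : X, g ^ p • x = x) :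
    Nat.card X + (p - 1) * Nat.card (MulAction.fixedBy X g) = p * Nat.card (Orb X g) := by
  classical
  cases nonempty_fintype (Orb X g)
  rw [← sum_period g]
  have hper : ∀ x : X, MulAction.period g x = 1 ∨ MulAction.period g x = p := fun x =>
    (Nat.dvd_prime hp).1 (MulAction.pow_smul_eq_iff_period_dvd.1 (hpow x))
  have hfix : Nat.card (MulAction.fixedBy X g) =
      (Finset.univ.filter fun q : Orb X g => MulAction.period g q.out = 1).card := by
    rw [← Fintype.card_coe, ← Nat.card_eq_fintype_card]
    have houtfix : ∀ x : X, g • x = x → (Quotient.mk'' x : Orb X g).out = x := by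
      intro x hx
      have h1 : (Quotient.mk'' x : Orb X g) = Quotient.mk'' (Quotient.mk'' x : Orb X g).out :=
        (Quotient.out_eq' _).symm
      obtain ⟨k, hk⟩ := (orb_mk_eq_iff g _ _).1 h1
      rw [← hk]
      exact MulAction.zpow_smul_eq_iff_period_dvd.2
        ((MulAction.period_eq_one_iff.2 hx).symm ▸ (one_dvd k : ((1 : ℕ) : ℤ) ∣ k))
    refine Nat.card_eq_of_bijective (fun x => ⟨Quotient.mk'' x.1, ?_⟩) ⟨?_, ?_⟩
    · rw [Finset.mem_filter, houtfix x.1 x.2]
      exact ⟨Finset.mem_univ _, MulAction.period_eq_one_iff.2 x.2⟩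
    · intro x y h
      have := congrArg Quotient.out (congrArg Subtype.val h)
      rwa [houtfix x.1 x.2, houtfix y.1 y.2, ← Subtype.ext_iff] at this
    · rintro ⟨q, hq⟩
      rw [Finset.mem_filter] at hq
      exact ⟨⟨q.out, MulAction.period_eq_one_iff.1 hq.2⟩, Subtype.ext (Quotient.out_eq' q)⟩
  rw [hfix, Nat.card_eq_fintype_card (α := Orb X g), ← Finset.card_univ, Finset.card_filter,
    Finset.mul_sum, ← Finset.sum_add_distrib, mul_comm p, ← smul_eq_mul, ← Finset.sum_const]
  refine Finset.sum_congr rfl fun q _ => ?_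
  rcases hper q.out with h | h
  · simp [h, Nat.add_sub_cancel' hp.one_lt.le]
  · simp [h, hp.ne_one]

end Count

section Sign

variable [DecidableEq X] [Fintype X]

omit [Finite X] [Finite A] in
/-- the sign of the permutation given by `g` is `(-1)^(|X| + #orbits)` -/
theorem sign_toPerm :
    Equiv.Perm.sign (MulAction.toPerm g : Equiv.Perm X) =
      (-1) ^ (Nat.card X + Nat.card (Orb X g)) := by
  classical
  set σ : Equiv.Perm X := MulAction.toPerm g with hσ
  have hsame : ∀ x y : X, σ.SameCycle x y ↔
      (Quotient.mk'' x : Orb X g) = Quotient.mk'' y := by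
    intro x y
    rw [orb_mk_eq_iff]
    have hz : ∀ k : ℤ, (σ ^ k) x = g ^ k • x := fun k => by
      rw [hσ, show (MulAction.toPerm g : Equiv.Perm X) = MulAction.toPermHom G X g from rfl,
        ← map_zpow]
      rfl
    exact exists_congr fun k => by rw [hz]
  have hpick : ∀ c : σ.cycleFactorsFinset, ∃ x, x ∈ (c : Equiv.Perm X).support := fun c =>
    Finset.nonempty_iff_ne_empty.2 fun h => (Equiv.Perm.mem_cycleFactorsFinset_iff.1 c.2).1.ne_one
      (Equiv.Perm.support_eq_empty_iff.1 h)
  choose pick hpick using hpick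
  have hpickσ : ∀ c, pick c ∈ σ.support := fun c =>
    Equiv.Perm.mem_cycleFactorsFinset_support_le c.2 (hpick c)
  let F : σ.cycleFactorsFinset ⊕ {x : X // x ∉ σ.support} → Orb X g :=
    Sum.elim (fun c => Quotient.mk'' (pick c)) fun x => Quotient.mk'' x.1
  have hF : Function.Bijective F := by
    constructor
    · rintro (c | ⟨x, hx⟩) (d | ⟨y, hy⟩) h <;>
        simp only [F, Sum.elim_inl, Sum.elim_inr, ← hsame] at h
      · refine congrArg Sum.inl (Subtype.ext ?_)
        rw [Equiv.Perm.cycle_is_cycleOf (hpick c) c.2, Equiv.Perm.cycle_is_cycleOf (hpick d) d.2,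
          h.cycleOf_eq]
      · exact absurd (h.mem_support_iff.1 (hpickσ c)) hy
      · exact absurd (h.symm.mem_support_iff.1 (hpickσ d)) hx
      · refine congrArg Sum.inr (Subtype.ext ?_)
        show x = y
        rw [Equiv.Perm.notMem_support] at hx
        obtain ⟨k, hk⟩ := h
        exact (Equiv.Perm.zpow_apply_eq_self_of_apply_eq_self hx k).symm.trans hk
    · intro q
      induction q using Quotient.inductionOn' with | h x => ?_
      by_cases hx : x ∈ σ.support
      · set c : σ.cycleFactorsFinset :=
          ⟨σ.cycleOf x, Equiv.Perm.cycleOf_mem_cycleFactorsFinset_iff.2 hx⟩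
        refine ⟨Sum.inl c, ?_⟩
        simp only [F, Sum.elim_inl, ← hsame]
        have hc : pick c ∈ (σ.cycleOf x).support := hpick c
        exact (Equiv.Perm.mem_support_cycleOf_iff.1 hc).1.symm
      · exact ⟨Sum.inr ⟨x, hx⟩, rfl⟩
  have hcard : Nat.card (Orb X g) =
      Multiset.card σ.cycleType + (Fintype.card X - σ.support.card) := by
    rw [← Nat.card_eq_of_bijective F hF, Nat.card_sum, Nat.card_eq_fintype_card,
      Nat.card_eq_fintype_card, Fintype.card_coe, Fintype.card_subtype_compl, Fintype.card_coe,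
      Equiv.Perm.cycleType_def, Multiset.card_map]
    rfl
  rw [Equiv.Perm.sign_of_cycleType, Equiv.Perm.sum_cycleType, hcard,
    Nat.card_eq_fintype_card (α := X)]
  have hle : σ.support.card ≤ Fintype.card X := Finset.card_le_univ _
  obtain ⟨m, hm⟩ := Nat.exists_eq_add_of_le hle
  rw [hm, Nat.add_sub_cancel_left, show σ.support.card + m + (Multiset.card σ.cycleType + m) =
    σ.support.card + Multiset.card σ.cycleType + 2 * m by ring, pow_add _ _ (2 * m), pow_mul,
    Int.units_sq, one_pow, mul_one]

end Sign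

end Fermat.Agent.Gamma0
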