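import Mathlib.Algebra.BigOperators.Group.Finset.Sigma
import Mathlib.GroupTheory.GroupAction.Period
import Mathlib.RingTheory.Int.Basic
import Mathlib.Data.ZMod.Units
import Fermat.Agent.Gamma0.Coset
import Fermat.Agent.Gamma0.OrbitSum

/-!
# Cusps of `Γ₀(N)`: orbits of `T` on `SL(2, ℤ) ⧸ Γ₀(N)` and their widths
-/

open scoped MatrixGroups
open CongruenceSubgroup ModularGroup

namespace Fermat.Agent.Gamma0

/-- The divisor `gcd(c, N)` attached to the coset of a matrix with lower left entry `c`. -/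
def cuspDenom (N : ℕ) (g : SL(2, ℤ)) : ℕ := Int.gcd (g 1 0) N

variable {N : ℕ}

theorem cuspDenom_dvd_natCast (g : SL(2, ℤ)) : cuspDenom N g ∣ N :=
  Int.natCast_dvd_natCast.1 (Int.gcd_dvd_right _ _)

theorem cuspDenom_dvd (g : SL(2, ℤ)) : (cuspDenom N g : ℤ) ∣ g 1 0 :=
  Int.gcd_dvd_left _ _

theorem cuspDenom_ne_zero [NeZero N] (g : SL(2, ℤ)) : cuspDenom N g ≠ 0 := fun h =>
  NeZero.ne N (by simpa using (Int.gcd_eq_zero_iff.1 h).2)

theorem T_zpow_mul_zero_zero (g : SL(2, ℤ)) (k : ℤ) :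
    (ModularGroup.T ^ k * g) 0 0 = g 0 0 + k * g 1 0 := by
  simp [Matrix.mul_apply, Fin.sum_univ_two, coe_T_zpow]

theorem T_zpow_mul_one_zero (g : SL(2, ℤ)) (k : ℤ) :
    (ModularGroup.T ^ k * g) 1 0 = g 1 0 := by
  rw [T_pow_mul_apply_one]

theorem T_zpow_smul_eq_iff (g h : SL(2, ℤ)) (k : ℤ) :
    ModularGroup.T ^ k • (g : SL(2, ℤ) ⧸ Gamma0 N) = h ↔
      (N : ℤ) ∣ (g 0 0 * h 1 0 - g 1 0 * h 0 0) + k * (g 1 0 * h 1 0) := by
  rw [MulAction.Quotient.smul_coe, smul_eq_mul, mk_eq_mk_iff, T_zpow_mul_zero_zero,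
    T_zpow_mul_one_zero, ← ZMod.intCast_zmod_eq_zero_iff_dvd]
  ring_nf

theorem cuspDenom_dvd_of_dvd_add (g h : SL(2, ℤ)) (k : ℤ)
    (hk : (N : ℤ) ∣ (g 0 0 * h 1 0 - g 1 0 * h 0 0) + k * (g 1 0 * h 1 0)) :
    cuspDenom N g ∣ cuspDenom N h := by
  have hd : (cuspDenom N g : ℤ) ∣ g 0 0 * h 1 0 := by
    have h1 : (cuspDenom N g : ℤ) ∣ _ := (Int.gcd_dvd_right (g 1 0) (N : ℤ)).trans hk
    have h2 : (cuspDenom N g : ℤ) ∣ -(g 1 0 * h 0 0) + k * (g 1 0 * h 1 0) :=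
      dvd_add ((cuspDenom_dvd g).mul_right _).neg_right
        (((cuspDenom_dvd g).mul_right _).mul_left _)
    have h3 := dvd_sub h1 h2
    rwa [show g 0 0 * h 1 0 - g 1 0 * h 0 0 + k * (g 1 0 * h 1 0)
      - (-(g 1 0 * h 0 0) + k * (g 1 0 * h 1 0)) = g 0 0 * h 1 0 by ring] at h3
  have hcop : IsCoprime (cuspDenom N g : ℤ) (g 0 0) :=
    ((isCoprime_col g).symm).of_isCoprime_of_dvd_left (cuspDenom_dvd g)
  exact Int.dvd_gcd (hcop.dvd_of_dvd_mul_left hd) (Int.gcd_dvd_right _ _)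

theorem cuspDenom_eq_of_smul_eq (g h : SL(2, ℤ)) (k : ℤ)
    (hk : ModularGroup.T ^ k • (g : SL(2, ℤ) ⧸ Gamma0 N) = h) :
    cuspDenom N g = cuspDenom N h := by
  refine Nat.dvd_antisymm (cuspDenom_dvd_of_dvd_add g h k ((T_zpow_smul_eq_iff g h k).1 hk))
    (cuspDenom_dvd_of_dvd_add h g (-k) ((T_zpow_smul_eq_iff h g (-k)).1 ?_))
  rw [← hk, zpow_neg, inv_smul_smul]

variable [NeZero N]

theorem exists_cuspDenom (g : SL(2, ℤ)) :
    ∃ c M : ℤ, g 1 0 = cuspDenom N g * c ∧ (N : ℤ) = cuspDenom N g * M ∧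
      M = ((N / cuspDenom N g : ℕ) : ℤ) ∧ IsCoprime c M := by
  refine ⟨g 1 0 / cuspDenom N g, ((N / cuspDenom N g : ℕ) : ℤ),
    (Int.mul_ediv_cancel' (cuspDenom_dvd g)).symm, ?_, rfl, ?_⟩
  · rw [← Nat.cast_mul, Nat.mul_div_cancel' (cuspDenom_dvd_natCast g)]
  · rw [Int.natCast_div, Int.isCoprime_iff_gcd_eq_one]
    exact Int.gcd_div_gcd_div_gcd (Nat.pos_of_ne_zero (cuspDenom_ne_zero g))

/-- `g` and `h` define the same cusp iff they have the same denominator `d` and the same class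
`a / (c / d)` modulo `gcd(d, N / d)`. -/
theorem exists_T_zpow_smul_eq_iff (g h : SL(2, ℤ)) :
    (∃ k : ℤ, ModularGroup.T ^ k • (g : SL(2, ℤ) ⧸ Gamma0 N) = h) ↔
      cuspDenom N g = cuspDenom N h ∧
        (Nat.gcd (cuspDenom N g) (N / cuspDenom N g) : ℤ) ∣
          g 0 0 * (h 1 0 / cuspDenom N g) - (g 1 0 / cuspDenom N g) * h 0 0 := by
  obtain ⟨c, M, hc, hM, hM', hcop⟩ := exists_cuspDenom (N := N) g
  obtain ⟨c', M', hc', hM₂, hM₂', hcop'⟩ := exists_cuspDenom (N := N) h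
  have hd : (cuspDenom N g : ℤ) ≠ 0 := by exact_mod_cast cuspDenom_ne_zero g
  have key : cuspDenom N g = cuspDenom N h → ∀ k : ℤ,
      ((N : ℤ) ∣ (g 0 0 * h 1 0 - g 1 0 * h 0 0) + k * (g 1 0 * h 1 0) ↔
        M ∣ (g 0 0 * c' - c * h 0 0) + k * (cuspDenom N g * (c * c'))) := by
    intro he k
    rw [hM, hc, hc', ← he, show g 0 0 * (cuspDenom N g * c') - cuspDenom N g * c * h 0 0
      + k * (cuspDenom N g * c * (cuspDenom N g * c')) = cuspDenom N g *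
        ((g 0 0 * c' - c * h 0 0) + k * (cuspDenom N g * (c * c'))) by ring,
      mul_dvd_mul_iff_left hd]
  constructor
  · rintro ⟨k, hk⟩
    have he := cuspDenom_eq_of_smul_eq g h k hk
    refine ⟨he, ?_⟩
    rw [T_zpow_smul_eq_iff, key he] at hk
    rw [hc', ← he, hc, Int.mul_ediv_cancel_left _ hd, Int.mul_ediv_cancel_left _ hd]
    have h1 : (Nat.gcd (cuspDenom N g) (N / cuspDenom N g) : ℤ) ∣ cuspDenom N g :=
      Int.natCast_dvd_natCast.2 (Nat.gcd_dvd_left _ _)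
    have h2 : (Nat.gcd (cuspDenom N g) (N / cuspDenom N g) : ℤ) ∣ M :=
      hM' ▸ Int.natCast_dvd_natCast.2 (Nat.gcd_dvd_right _ _)
    have h3 := dvd_sub (h2.trans hk) ((h1.mul_right (c * c')).mul_left k)
    rwa [add_sub_cancel_right] at h3
  · rintro ⟨he, hdvd⟩
    rw [hc', ← he, hc, Int.mul_ediv_cancel_left _ hd, Int.mul_ediv_cancel_left _ hd] at hdvd
    have hM₃ : M' = M := by rw [hM', hM₂', he]
    rw [hM₃] at hcop'
    obtain ⟨x, y, hxy⟩ := hcop.mul_left hcop'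
    have hb := Int.gcd_eq_gcd_ab (cuspDenom N g : ℤ) M
    rw [hM', Int.gcd_natCast_natCast, ← hM'] at hb
    obtain ⟨e, he'⟩ := hdvd
    refine ⟨-e * (Int.gcdA (cuspDenom N g : ℤ) M) * x, ?_⟩
    rw [T_zpow_smul_eq_iff, key he]
    refine ⟨e * Int.gcdB (cuspDenom N g : ℤ) M
      + e * Int.gcdA (cuspDenom N g : ℤ) M * cuspDenom N g * y, ?_⟩
    linear_combination he' + e * hb
      - (e * Int.gcdA (cuspDenom N g : ℤ) M * cuspDenom N g) * hxy

/-- The set of cusps of `Γ₀(N)`. -/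
abbrev Cusp (N : ℕ) : Type :=
  MulAction.orbitRel.Quotient (Subgroup.zpowers ModularGroup.T) (SL(2, ℤ) ⧸ Gamma0 N)

omit [NeZero N] in
theorem cusp_mk_eq_iff (x y : SL(2, ℤ) ⧸ Gamma0 N) :
    (Quotient.mk'' x : Cusp N) = Quotient.mk'' y ↔ ∃ k : ℤ, ModularGroup.T ^ k • x = y :=
  orb_mk_eq_iff ModularGroup.T x y

theorem natCard_cusps (N : ℕ) [NeZero N] : Nat.card (Cusp N) = ModularCurve.cuspCount N := by
  classical
  have hne : ∀ d : N.divisors, NeZero (Nat.gcd d.1 (N / d.1)) := fun d =>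
    ⟨(Nat.gcd_pos_of_pos_left _ (Nat.pos_of_mem_divisors d.2)).ne'⟩
  have hlift : ∀ i : Σ d : N.divisors, (ZMod (Nat.gcd d.1 (N / d.1)))ˣ,
      ∃ g : SL(2, ℤ), g 1 0 = (i.1.1 : ℤ) ∧
        (g 0 0 : ZMod (Nat.gcd i.1.1 (N / i.1.1))) = i.2 := by
    rintro ⟨d, t⟩
    have : NeZero d.1 := ⟨(Nat.pos_of_mem_divisors d.2).ne'⟩
    obtain ⟨u, hu⟩ := ZMod.unitsMap_surjective (Nat.gcd_dvd_left d.1 (N / d.1)) t
    have hcop : IsCoprime ((u : ZMod d.1).val : ℤ) (d.1 : ℤ) :=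
      Nat.isCoprime_iff_coprime.2 (ZMod.val_coe_unit_coprime u)
    obtain ⟨g, h0, h1⟩ := exists_col hcop
    refine ⟨g, h1, ?_⟩
    rw [h0, Int.cast_natCast, ← hu, ZMod.natCast_val]
    rfl
  choose rep hrep1 hrep0 using hlift
  have hden : ∀ i, cuspDenom N (rep i) = i.1.1 := fun i => by
    rw [cuspDenom, hrep1, Int.gcd_natCast_natCast]
    exact Nat.gcd_eq_left (Nat.dvd_of_mem_divisors i.1.2)
  have hdivself : ∀ d : N.divisors, (d.1 : ℤ) / d.1 = 1 := fun d =>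
    Int.ediv_self (by exact_mod_cast (Nat.pos_of_mem_divisors d.2).ne')
  have key : Function.Bijective fun i => (Quotient.mk'' (rep i : SL(2, ℤ) ⧸ Gamma0 N) : Cusp N) := by
    constructor
    · intro i j hij
      rw [cusp_mk_eq_iff, exists_T_zpow_smul_eq_iff] at hij
      obtain ⟨he, hdvd⟩ := hij
      rw [hden, hden] at he
      obtain ⟨d, t⟩ := i
      obtain ⟨d', t'⟩ := j
      obtain rfl : d = d' := Subtype.ext he
      congr 1
      rw [hden, hrep1, hrep1, hdivself d, mul_one, one_mul,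
        ← ZMod.intCast_zmod_eq_zero_iff_dvd, Int.cast_sub, hrep0 ⟨d, t⟩, hrep0 ⟨d, t'⟩] at hdvd
      exact Units.ext (sub_eq_zero.1 hdvd)
    · intro q
      induction q using Quotient.inductionOn' with | h x => ?_
      induction x using QuotientGroup.induction_on with | _ g => ?_
      obtain ⟨c, M, hc, hM, hM', hcop⟩ := exists_cuspDenom (N := N) g
      let d : N.divisors := ⟨cuspDenom N g,
        Nat.mem_divisors.2 ⟨cuspDenom_dvd_natCast g, NeZero.ne N⟩⟩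
      set n := Nat.gcd d.1 (N / d.1) with hn
      have h2 : (n : ℤ) ∣ M := hM' ▸ Int.natCast_dvd_natCast.2 (Nat.gcd_dvd_right _ _)
      have h1 : (n : ℤ) ∣ g 1 0 :=
        (Int.natCast_dvd_natCast.2 (Nat.gcd_dvd_left _ _)).trans (cuspDenom_dvd g)
      have hunit : ∀ {a : ℤ}, IsCoprime a (n : ℤ) → IsUnit (a : ZMod n) := fun {a} h => by
        obtain ⟨x, y, hxy⟩ := h
        refine isUnit_of_dvd_one ⟨(x : ZMod n), ?_⟩
        have := congrArg (Int.cast : ℤ → ZMod n) hxy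
        push_cast [ZMod.natCast_self] at this
        linear_combination -this
      obtain ⟨ua, hua⟩ := hunit ((isCoprime_col g).of_isCoprime_of_dvd_right h1)
      obtain ⟨uc, huc⟩ := hunit (hcop.of_isCoprime_of_dvd_right h2)
      refine ⟨⟨d, ua * uc⁻¹⟩, ?_⟩
      show Quotient.mk'' _ = _
      rw [cusp_mk_eq_iff, exists_T_zpow_smul_eq_iff, hden ⟨d, _⟩]
      refine ⟨rfl, ?_⟩
      rw [hrep1, hdivself d, one_mul,
        show g 1 0 / ((d.1 : ℕ) : ℤ) = c by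
          rw [hc]; exact Int.mul_ediv_cancel_left _ (by exact_mod_cast cuspDenom_ne_zero g),
        ← ZMod.intCast_zmod_eq_zero_iff_dvd, Int.cast_sub, Int.cast_mul, hrep0 ⟨d, _⟩,
        Units.val_mul, ← hua, ← huc]
      simp
  rw [← Nat.card_eq_of_bijective _ key, Nat.card_sigma, ModularCurve.cuspCount,
    ← Finset.sum_coe_sort N.divisors fun d => Nat.totient (Nat.gcd d (N / d))]
  refine Finset.sum_congr rfl fun d _ => ?_
  have := hne d
  rw [Nat.card_eq_fintype_card, ZMod.card_units_eq_totient]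

end Fermat.Agent.Gamma0
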