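import Mathlib.Algebra.Group.Subgroup.Finite
import Mathlib.Algebra.BigOperators.Group.Finset.Basic
import Mathlib.Algebra.Field.ZMod
import Mathlib.Data.Nat.Cast.Order.Basic
import Fermat.Agent.Gamma0.Cocycle
import Fermat.Agent.Gamma0.OrbitSum

/-!
# Counting `ellParHoms Γ A` for finite `A`, and the genus of `Γ`
-/

open scoped MatrixGroups
open ModularGroup

namespace Fermat.Agent.Gamma0

variable {Γ : Subgroup SL(2, ℤ)} {A : Type*} [AddCommGroup A]

theorem IsCocycle.pow {c : SL(2, ℤ) → SL(2, ℤ) ⧸ Γ → A} (hc : IsCocycle c) (g : SL(2, ℤ)) (n : ℕ)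
    (x : SL(2, ℤ) ⧸ Γ) : c (g ^ n) x = ∑ i ∈ Finset.range n, c g (g ^ i • x) := by
  induction n with
  | zero => rw [pow_zero, hc.map_one, Finset.sum_range_zero]
  | succ n ih => rw [pow_succ', hc, ih, Finset.sum_range_succ, add_comm]

theorem IsCocycle.zpow_eq_zero {c : SL(2, ℤ) → SL(2, ℤ) ⧸ Γ → A} (hc : IsCocycle c)
    (g : SL(2, ℤ)) (x : SL(2, ℤ) ⧸ Γ) (hx : g • x = x) (h : c g x = 0) (j : ℤ) :
    c (g ^ j) x = 0 := by
  let H : Subgroup SL(2, ℤ) :=
    { carrier := {a | a • x = x ∧ c a x = 0}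
      one_mem' := ⟨one_smul _ _, hc.map_one x⟩
      mul_mem' := by
        intro a b ha hb
        exact ⟨by rw [mul_smul, hb.1, ha.1], by rw [hc, hb.1, ha.2, hb.2, add_zero]⟩
      inv_mem' := by
        intro a ha
        have h1 : a⁻¹ • x = x := inv_smul_eq_iff.2 ha.1.symm
        exact ⟨h1, by rw [hc.map_inv, h1, ha.2, neg_zero]⟩ }
  exact (H.zpow_mem (show g ∈ H from ⟨hx, h⟩) j).2

theorem IsCocycle.T_zpow_eq_zero [Γ.FiniteIndex] {c : SL(2, ℤ) → SL(2, ℤ) ⧸ Γ → A}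
    (hc : IsCocycle c) (h : orbitSum ModularGroup.T (c ModularGroup.T) = 0) (k : ℤ)
    (x : SL(2, ℤ) ⧸ Γ) (hx : ModularGroup.T ^ k • x = x) : c (ModularGroup.T ^ k) x = 0 := by
  obtain ⟨j, rfl⟩ := MulAction.zpow_smul_eq_iff_period_dvd.1 hx
  rw [zpow_mul, zpow_natCast]
  refine hc.zpow_eq_zero _ x (MulAction.pow_period_smul _ _) ?_ j
  rw [hc.pow, ← orbitSum_mk_eq_sum_range, h]
  rfl

/-- the possible pairs `(c S, c ST)` before imposing the cusp conditions -/
def pairs (Γ : Subgroup SL(2, ℤ)) (A : Type*) [AddCommGroup A] :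
    AddSubgroup ((SL(2, ℤ) ⧸ Γ → A) × (SL(2, ℤ) ⧸ Γ → A)) :=
  (diff ModularGroup.S : (SL(2, ℤ) ⧸ Γ → A) →+ _).range.prod
    (diff ST : (SL(2, ℤ) ⧸ Γ → A) →+ _).range

/-- the value of the cocycle at `T` in terms of the values at `S`, `ST` -/
def valT (Γ : Subgroup SL(2, ℤ)) (A : Type*) [AddCommGroup A] :
    ((SL(2, ℤ) ⧸ Γ → A) × (SL(2, ℤ) ⧸ Γ → A)) →+ (SL(2, ℤ) ⧸ Γ → A) where
  toFun p x := p.1 (ST • x) + p.2 x
  map_zero' := funext fun _ => add_zero 0
  map_add' p q := funext fun x => by simp only [Prod.fst_add, Prod.snd_add, Pi.add_apply]; abel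

theorem S_smul_S_smul (hneg : -1 ∈ Γ) (x : SL(2, ℤ) ⧸ Γ) :
    ModularGroup.S • ModularGroup.S • x = x := by
  rw [← mul_smul, S_mul_S, neg_one_smul_coset hneg]

theorem ST_smul_three (hneg : -1 ∈ Γ) (x : SL(2, ℤ) ⧸ Γ) : ST • ST • ST • x = x := by
  rw [← mul_smul, ← mul_smul, ← pow_two, ← pow_succ, ST_pow_three, neg_one_smul_coset hneg]

theorem isRelPair_of_mem_pairs (hneg : -1 ∈ Γ) {p} (hp : p ∈ pairs Γ A) :
    IsRelPair p.1 p.2 := by
  obtain ⟨⟨f, hf⟩, ⟨h, hh⟩⟩ := AddSubgroup.mem_prod.1 hp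
  refine ⟨fun x => ?_, fun x => ?_⟩
  · rw [← hf, diff_apply, diff_apply, S_smul_S_smul hneg]
    abel
  · rw [← hh, diff_apply, diff_apply, diff_apply, ST_smul_three hneg]
    abel

section Theta

variable (hneg : -1 ∈ Γ)

/-- the cocycle with given values at `S`, `ST` -/
noncomputable def cocycleOf (p : pairs Γ A) : SL(2, ℤ) → SL(2, ℤ) ⧸ Γ → A :=
  (exists_cocycle hneg (isRelPair_of_mem_pairs hneg p.2)).choose

theorem cocycleOf_spec (p : pairs Γ A) :
    IsCocycle (cocycleOf hneg p) ∧ cocycleOf hneg p ModularGroup.S = p.1.1 ∧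
      cocycleOf hneg p ST = p.1.2 :=
  (exists_cocycle hneg (isRelPair_of_mem_pairs hneg p.2)).choose_spec

theorem cocycleOf_add (p q : pairs Γ A) :
    cocycleOf hneg (p + q) = cocycleOf hneg p + cocycleOf hneg q := by
  obtain ⟨h1, h1S, h1R⟩ := cocycleOf_spec hneg (p + q)
  obtain ⟨h2, h2S, h2R⟩ := cocycleOf_spec hneg p
  obtain ⟨h3, h3S, h3R⟩ := cocycleOf_spec hneg q
  refine h1.ext_of_eq (fun g h x => ?_) ?_ ?_
  · simp only [Pi.add_apply]
    rw [h2 g h x, h3 g h x]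
    abel
  · rw [h1S, Pi.add_apply, h2S, h3S]
    rfl
  · rw [h1R, Pi.add_apply, h2R, h3R]
    rfl

/-- the homomorphism `Γ → A` attached to a pair -/
noncomputable def theta : pairs Γ A →+ (Additive Γ →+ A) :=
  AddMonoidHom.mk' (fun p => (cocycleOf_spec hneg p).1.toHom) fun p q =>
    AddMonoidHom.ext fun γ => by
      show cocycleOf hneg (p + q) _ _ = cocycleOf hneg p _ _ + cocycleOf hneg q _ _
      rw [cocycleOf_add]
      rfl

theorem theta_apply (p : pairs Γ A) : theta hneg p = (cocycleOf_spec hneg p).1.toHom := rfl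

theorem cocycleOf_T (p : pairs Γ A) :
    cocycleOf hneg p ModularGroup.T = valT Γ A (p : _ × _) := by
  obtain ⟨hc, hS, hR⟩ := cocycleOf_spec hneg p
  funext x
  rw [hc.map_T (by rw [hS]; exact (isRelPair_of_mem_pairs hneg p.2).1), hS, hR]
  rfl

end Theta

variable [Γ.FiniteIndex]

/-- sums of `c T` over the cusps -/
noncomputable def cuspSum (Γ : Subgroup SL(2, ℤ)) [Γ.FiniteIndex] (A : Type*) [AddCommGroup A] :
    pairs Γ A →+ (Orb (SL(2, ℤ) ⧸ Γ) ModularGroup.T → A) :=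
  (orbitSum ModularGroup.T).comp ((valT Γ A).comp (pairs Γ A).subtype)

/-- the pair attached to a coboundary -/
noncomputable def cobound (Γ : Subgroup SL(2, ℤ)) (A : Type*) [AddCommGroup A] :
    (SL(2, ℤ) ⧸ Γ → A) →+ pairs Γ A :=
  ((diff ModularGroup.S).prod (diff ST)).codRestrict _ fun f =>
    AddSubgroup.mem_prod.2 ⟨⟨f, rfl⟩, ⟨f, rfl⟩⟩

omit [Γ.FiniteIndex] in
theorem coe_cobound (f : SL(2, ℤ) ⧸ Γ → A) :
    (cobound Γ A f : _ × _) = (diff ModularGroup.S f, diff ST f) := rfl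

theorem cobound_mem_ker_cuspSum (hneg : -1 ∈ Γ) (f : SL(2, ℤ) ⧸ Γ → A) :
    cobound Γ A f ∈ (cuspSum Γ A).ker := by
  rw [AddMonoidHom.mem_ker]
  show orbitSum ModularGroup.T (valT Γ A (cobound Γ A f : _ × _)) = 0
  have h : valT Γ A (cobound Γ A f : _ × _) = diff ModularGroup.T f := by
    funext x
    show diff ModularGroup.S f (ST • x) + diff ST f x = _
    rw [diff_apply, diff_apply, diff_apply, T_eq_neg_S_mul_ST, neg_smul_coset hneg, mul_smul]
    abel
  rw [h, orbitSum_diff]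

variable [Finite A]

theorem map_ker_cuspSum (hneg : -1 ∈ Γ) :
    (cuspSum Γ A).ker.map (theta hneg) = ellParHoms Γ A := by
  ext φ
  constructor
  · rintro ⟨p, hp, rfl⟩
    obtain ⟨hc, hS, hR⟩ := cocycleOf_spec hneg p
    rw [theta_apply, hc.toHom_mem_ellParHoms_iff hneg
      (by rw [hS]; exact (isRelPair_of_mem_pairs hneg p.2).1)]
    obtain ⟨⟨f, hf⟩, ⟨h, hh⟩⟩ := AddSubgroup.mem_prod.1 p.2
    refine ⟨fun x hx => ?_, fun x hx => ?_, fun k x hx => hc.T_zpow_eq_zero ?_ k x hx⟩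
    · rw [hS, ← hf, diff_apply, hx, sub_self]
    · rw [hR, ← hh, diff_apply, hx, sub_self]
    · rw [cocycleOf_T]
      exact hp
  · intro hφ
    obtain ⟨c, hc, hrel, rfl⟩ := exists_cocycle_toHom hneg φ
      (hφ ⟨-1, hneg⟩ (by simp))
    obtain ⟨h2, h3, hp⟩ := (hc.toHom_mem_ellParHoms_iff hneg hrel.1).1 hφ
    have hu : c ModularGroup.S ∈ (diff ModularGroup.S : (SL(2, ℤ) ⧸ Γ → A) →+ _).range := by
      rw [mem_range_diff_iff]
      intro x
      rcases (Nat.dvd_prime Nat.prime_two).1 (MulAction.pow_smul_eq_iff_period_dvd.1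
        (by rw [pow_two, S_mul_S, neg_one_smul_coset hneg] :
          (ModularGroup.S ^ 2 : SL(2, ℤ)) • x = x)) with h | h
      · rw [h, Finset.sum_range_one, pow_zero, one_smul]
        exact h2 x (MulAction.period_eq_one_iff.1 h)
      · rw [h, Finset.sum_range_succ, Finset.sum_range_one, pow_zero, one_smul, pow_one]
        exact hrel.1 x
    have hv : c ST ∈ (diff ST : (SL(2, ℤ) ⧸ Γ → A) →+ _).range := by
      rw [mem_range_diff_iff]
      intro x
      rcases (Nat.dvd_prime Nat.prime_three).1 (MulAction.pow_smul_eq_iff_period_dvd.1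
        (by rw [ST_pow_three, neg_one_smul_coset hneg] : (ST ^ 3 : SL(2, ℤ)) • x = x)) with h | h
      · rw [h, Finset.sum_range_one, pow_zero, one_smul]
        exact h3 x (MulAction.period_eq_one_iff.1 h)
      · rw [h, Finset.sum_range_succ, Finset.sum_range_succ, Finset.sum_range_one, pow_zero,
          one_smul, pow_one, pow_two, mul_smul]
        exact hrel.2 x
    let p : pairs Γ A := ⟨(c ModularGroup.S, c ST), AddSubgroup.mem_prod.2 ⟨hu, hv⟩⟩
    obtain ⟨hc', hS, hR⟩ := cocycleOf_spec hneg p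
    have heq : cocycleOf hneg p = c := hc'.ext_of_eq hc hS hR
    refine ⟨p, ?_, ?_⟩
    · show orbitSum ModularGroup.T (valT Γ A (p : _ × _)) = 0
      rw [← cocycleOf_T hneg, heq]
      funext q
      induction q using Quotient.inductionOn' with | h x => ?_
      rw [orbitSum_mk_eq_sum_range, ← hc.pow, ← zpow_natCast]
      exact hp _ x (by rw [zpow_natCast, MulAction.pow_period_smul])
    · refine AddMonoidHom.ext fun γ => ?_
      show cocycleOf hneg p _ _ = _
      rw [heq]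
      rfl

omit [Finite A] in
theorem ker_theta_inter (hneg : -1 ∈ Γ) :
    ((theta hneg).comp (cuspSum Γ A).ker.subtype).ker =
      (cobound Γ A).range.addSubgroupOf (cuspSum Γ A).ker := by
  ext ⟨p, hp⟩
  rw [AddMonoidHom.mem_ker, AddSubgroup.mem_addSubgroupOf]
  show theta hneg p = 0 ↔ p ∈ (cobound Γ A).range
  obtain ⟨hc, hS, hR⟩ := cocycleOf_spec hneg p
  rw [theta_apply, hc.toHom_eq_zero_iff]
  constructor
  · rintro ⟨f, hf⟩
    refine ⟨-f, Subtype.ext (Prod.ext ?_ ?_)⟩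
    · funext x
      show diff ModularGroup.S (-f) x = _
      rw [← hS, hf, diff_apply, Pi.neg_apply, Pi.neg_apply]
      abel
    · funext x
      show diff ST (-f) x = _
      rw [← hR, hf, diff_apply, Pi.neg_apply, Pi.neg_apply]
      abel
  · rintro ⟨f, rfl⟩
    refine ⟨-f, fun g x => ?_⟩
    have heq : cocycleOf hneg (cobound Γ A f) = fun g x => (-f) (g • x) - (-f) x := by
      refine hc.ext_of_eq (fun g h x => ?_) ?_ ?_
      · simp only [mul_smul]
        abel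
      · rw [hS, coe_cobound]
        funext x
        simp only [diff_apply, Pi.neg_apply]
        abel
      · rw [hR, coe_cobound]
        funext x
        simp only [diff_apply, Pi.neg_apply]
        abel
    rw [heq]

omit [Γ.FiniteIndex] in
theorem invariant_of_S_ST {B : Type*} (f : SL(2, ℤ) ⧸ Γ → B)
    (hS : ∀ x, f (ModularGroup.S • x) = f x) (hR : ∀ x, f (ST • x) = f x) (g : SL(2, ℤ))
    (x : SL(2, ℤ) ⧸ Γ) : f (g • x) = f x := by
  let H : Subgroup SL(2, ℤ) :=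
    { carrier := {a | ∀ y, f (a • y) = f y}
      one_mem' := fun y => by rw [one_smul]
      mul_mem' := fun {a b} ha hb y => by rw [mul_smul, ha, hb]
      inv_mem' := fun {a} ha y => by rw [← ha (a⁻¹ • y), smul_inv_smul] }
  have hle : Subgroup.closure {ModularGroup.S, ST} ≤ H := by
    rw [Subgroup.closure_le]
    rintro a (rfl | rfl) <;> assumption
  exact hle (closure_S_ST ▸ Subgroup.mem_top g) x

omit [Finite A] in
theorem natCard_range_cobound_mul :
    Nat.card (cobound Γ A).range * Nat.card A = Nat.card A ^ Nat.card (SL(2, ℤ) ⧸ Γ) := by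
  rw [← Nat.card_fun, ← AddSubgroup.index_mul_card (cobound Γ A).ker, AddSubgroup.index_ker]
  congr 1
  symm
  refine Nat.card_eq_of_bijective
    (fun f : (cobound Γ A).ker => (f : SL(2, ℤ) ⧸ Γ → A) (QuotientGroup.mk 1)) ⟨?_, ?_⟩
  · intro f f' h
    have key : ∀ (φ : (cobound Γ A).ker) (x : SL(2, ℤ) ⧸ Γ),
        (φ : SL(2, ℤ) ⧸ Γ → A) x = (φ : SL(2, ℤ) ⧸ Γ → A) (QuotientGroup.mk 1) := by
      intro φ x
      have h0 := congrArg (fun p : pairs Γ A => ((p : (SL(2, ℤ) ⧸ Γ → A) × (SL(2, ℤ) ⧸ Γ → A)))) (AddMonoidHom.mem_ker.1 φ.2)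
      simp only [coe_cobound, AddSubgroup.coe_zero, Prod.ext_iff] at h0
      obtain ⟨g, rfl⟩ := MulAction.exists_smul_eq SL(2, ℤ)
        (QuotientGroup.mk 1 : SL(2, ℤ) ⧸ Γ) x
      refine invariant_of_S_ST _ (fun y => ?_) (fun y => ?_) g _
      · exact (sub_eq_zero.1 (congrFun h0.1 y)).symm
      · exact (sub_eq_zero.1 (congrFun h0.2 y)).symm
    refine Subtype.ext (funext fun x => ?_)
    rw [key f x, key f' x]
    exact h
  · intro a
    refine ⟨⟨fun _ => a, AddMonoidHom.mem_ker.2 (Subtype.ext (Prod.ext ?_ ?_))⟩, rfl⟩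
    · funext x
      exact sub_self a
    · funext x
      exact sub_self a

omit [Finite A] in
theorem natCard_range_cuspSum_mul :
    Nat.card (cuspSum Γ A).range * Nat.card A =
      Nat.card A ^ Nat.card (Orb (SL(2, ℤ) ⧸ Γ) ModularGroup.T) := by
  classical
  cases nonempty_fintype (SL(2, ℤ) ⧸ Γ)
  cases nonempty_fintype (Orb (SL(2, ℤ) ⧸ Γ) ModularGroup.T)
  let total : (Orb (SL(2, ℤ) ⧸ Γ) ModularGroup.T → A) →+ A :=
    AddMonoidHom.mk' (fun b => ∑ q, b q) fun b b' => Finset.sum_add_distrib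
  have hsum : ∀ w : SL(2, ℤ) ⧸ Γ → A, total (orbitSum ModularGroup.T w) = ∑ x, w x := by
    intro w
    show ∑ q, ∑ x ∈ fibre ModularGroup.T q, w x = _
    refine Eq.trans ?_ (Finset.sum_fiberwise Finset.univ
      (fun x => (Quotient.mk'' x : Orb (SL(2, ℤ) ⧸ Γ) ModularGroup.T)) w)
    refine Finset.sum_congr rfl fun q _ => Finset.sum_congr ?_ fun _ _ => rfl
    ext x
    simp
  have hdiff : ∀ (g : SL(2, ℤ)) (f : SL(2, ℤ) ⧸ Γ → A), ∑ x, diff g f x = 0 := by
    intro g f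
    simp only [diff_apply, Finset.sum_sub_distrib]
    rw [Equiv.sum_comp (MulAction.toPerm g : Equiv.Perm (SL(2, ℤ) ⧸ Γ)) f |>.symm]
    simp
  have hrange : (cuspSum Γ A).range = total.ker := by
    apply le_antisymm
    · rintro _ ⟨p, rfl⟩
      obtain ⟨⟨f, hf⟩, ⟨h, hh⟩⟩ := AddSubgroup.mem_prod.1 p.2
      rw [AddMonoidHom.mem_ker]
      show total (orbitSum ModularGroup.T (valT Γ A (p : _ × _))) = 0
      rw [hsum]
      show ∑ x, (p.1.1 (ST • x) + p.1.2 x) = 0
      rw [Finset.sum_add_distrib, ← hf, ← hh, hdiff, add_zero]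
      exact (Equiv.sum_comp (MulAction.toPerm ST : Equiv.Perm (SL(2, ℤ) ⧸ Γ))
        (diff ModularGroup.S f)).trans (hdiff _ _)
    · intro b hb
      let I := (cuspSum Γ A).range
      let H : Subgroup SL(2, ℤ) :=
        { carrier := {g | ∀ (x : SL(2, ℤ) ⧸ Γ) (a : A),
            Pi.single (Quotient.mk'' (g • x) : Orb (SL(2, ℤ) ⧸ Γ) ModularGroup.T) a
              - Pi.single (Quotient.mk'' x : Orb (SL(2, ℤ) ⧸ Γ) ModularGroup.T) a ∈ I}
          one_mem' := fun x a => by rw [one_smul, sub_self]; exact zero_mem I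
          mul_mem' := fun {g g'} hg hg' x a => by
            have := add_mem (hg (g' • x) a) (hg' x a)
            rwa [sub_add_sub_cancel, ← mul_smul] at this
          inv_mem' := fun {g} hg x a => by
            have := neg_mem (hg (g⁻¹ • x) a)
            rwa [neg_sub, smul_inv_smul] at this }
      have hT : ModularGroup.T ∈ H := fun x a => by
        rw [orb_mk_smul, sub_self]
        exact zero_mem I
      have hR : ST ∈ H := fun x a => by
        refine ⟨⟨(0, diff ST (Pi.single (ST • x) a)),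
          AddSubgroup.mem_prod.2 ⟨⟨0, map_zero _⟩, ⟨_, rfl⟩⟩⟩, ?_⟩
        show orbitSum ModularGroup.T (valT Γ A (0, diff ST (Pi.single (ST • x) a))) = _
        rw [← orbitSum_single ModularGroup.T (ST • x) a,
          ← orbitSum_single ModularGroup.T x a, ← map_sub]
        congr 1
        funext y
        show (0 : A) + diff ST (Pi.single (ST • x) a) y = _
        rw [zero_add, diff_apply, Pi.sub_apply]
        congr 1
        rw [Pi.single_apply, Pi.single_apply]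
        exact if_congr (smul_left_cancel_iff ST) rfl rfl
      have htop : ∀ g, g ∈ H := by
        intro g
        have hS : ModularGroup.S ∈ H := by
          have h := H.mul_mem hR (H.inv_mem hT)
          rwa [ST, mul_assoc, mul_inv_cancel, mul_one] at h
        have hle : Subgroup.closure {ModularGroup.S, ST} ≤ H := by
          rw [Subgroup.closure_le]
          rintro a (rfl | rfl) <;> assumption
        exact hle (closure_S_ST ▸ Subgroup.mem_top g)
      set q0 : Orb (SL(2, ℤ) ⧸ Γ) ModularGroup.T := Quotient.mk'' (QuotientGroup.mk 1)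
      have hb' : b = ∑ q, (Pi.single q (b q) - Pi.single q0 (b q)) := by
        rw [Finset.sum_sub_distrib, Finset.univ_sum_single]
        show b = b - ∑ q, AddMonoidHom.single (fun _ : Orb (SL(2, ℤ) ⧸ Γ) ModularGroup.T => A) q0 (b q)
        have h0 : ∑ q, b q = 0 := hb
        rw [← map_sum, h0, map_zero, sub_zero]
      rw [hb']
      refine sum_mem fun q _ => ?_
      induction q using Quotient.inductionOn' with | h x => ?_
      obtain ⟨g, rfl⟩ := MulAction.exists_smul_eq SL(2, ℤ) (QuotientGroup.mk 1 : SL(2, ℤ) ⧸ Γ) x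
      exact htop g _ _
  have h := AddSubgroup.index_mul_card total.ker
  rw [AddSubgroup.index_ker, AddMonoidHom.range_eq_top_of_surjective _ (fun a => ⟨Pi.single
    (Quotient.mk'' (QuotientGroup.mk 1)) a, by simp [total]⟩),
    Nat.card_congr AddSubgroup.topEquiv.toEquiv, Nat.card_fun] at h
  rw [hrange, ← h, mul_comm]

theorem natCard_ellParHoms_mul (hneg : -1 ∈ Γ) :
    Nat.card (ellParHoms Γ A) * Nat.card A ^
      (Nat.card (Orb (SL(2, ℤ) ⧸ Γ) ModularGroup.S) + Nat.card (Orb (SL(2, ℤ) ⧸ Γ) ST) +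
        Nat.card (Orb (SL(2, ℤ) ⧸ Γ) ModularGroup.T)) =
      Nat.card A ^ (Nat.card (SL(2, ℤ) ⧸ Γ) + 2) := by
  set L := (cuspSum Γ A).ker
  have hP : Nat.card (pairs Γ A) =
      Nat.card (diff ModularGroup.S : (SL(2, ℤ) ⧸ Γ → A) →+ _).range *
        Nat.card (diff ST : (SL(2, ℤ) ⧸ Γ → A) →+ _).range := by
    rw [← Nat.card_prod]
    exact Nat.card_congr (AddSubgroup.prodEquiv _ _).toEquiv
  have h1 := AddSubgroup.index_mul_card L
  rw [AddSubgroup.index_ker, hP] at h1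
  have h2 := AddSubgroup.index_mul_card ((theta hneg).comp L.subtype).ker
  rw [AddSubgroup.index_ker, ker_theta_inter, AddMonoidHom.range_comp, AddSubgroup.range_subtype,
    map_ker_cuspSum, Nat.card_congr (AddSubgroup.addSubgroupOfEquivOfLe (H := (cobound Γ A).range)
      (K := L) (by rintro _ ⟨f, rfl⟩; exact cobound_mem_ker_cuspSum hneg f)).toEquiv] at h2
  have hS := natCard_range_diff_mul (X := SL(2, ℤ) ⧸ Γ) (A := A) ModularGroup.S
  have hR := natCard_range_diff_mul (X := SL(2, ℤ) ⧸ Γ) (A := A) ST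
  have hT := natCard_range_cuspSum_mul (Γ := Γ) (A := A)
  have hB := natCard_range_cobound_mul (Γ := Γ) (A := A)
  rw [← h2] at h1
  refine Nat.eq_of_mul_eq_mul_right
    (pow_pos (Nat.card_pos (α := A)) (Nat.card (SL(2, ℤ) ⧸ Γ))) ?_
  rw [pow_add, pow_add, pow_add]
  conv_lhs => rw [← hB, ← hT]
  calc _ = (Nat.card (cuspSum Γ A).range *
        (Nat.card (ellParHoms Γ A) * Nat.card (cobound Γ A).range)) *
        Nat.card A ^ Nat.card (Orb (SL(2, ℤ) ⧸ Γ) ModularGroup.S) *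
        Nat.card A ^ Nat.card (Orb (SL(2, ℤ) ⧸ Γ) ST) * Nat.card A ^ 2 := by ring
    _ = (Nat.card (diff ModularGroup.S : (SL(2, ℤ) ⧸ Γ → A) →+ _).range *
          Nat.card A ^ Nat.card (Orb (SL(2, ℤ) ⧸ Γ) ModularGroup.S)) *
        (Nat.card (diff ST : (SL(2, ℤ) ⧸ Γ → A) →+ _).range *
          Nat.card A ^ Nat.card (Orb (SL(2, ℤ) ⧸ Γ) ST)) * Nat.card A ^ 2 := by rw [h1]; ring
    _ = _ := by rw [hS, hR]; ring

/-- The genus of `Γ`. -/
noncomputable def genusOf (Γ : Subgroup SL(2, ℤ)) : ℕ :=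
  (Nat.card (SL(2, ℤ) ⧸ Γ) + 2 - (Nat.card (Orb (SL(2, ℤ) ⧸ Γ) ModularGroup.S) +
    Nat.card (Orb (SL(2, ℤ) ⧸ Γ) ST) + Nat.card (Orb (SL(2, ℤ) ⧸ Γ) ModularGroup.T))) / 2

omit [Finite A] in
/-- Riemann–Hurwitz: `2g + #S-orbits + #ST-orbits + #cusps = index + 2`. -/
theorem two_mul_genusOf_add (hneg : -1 ∈ Γ) :
    2 * genusOf Γ + (Nat.card (Orb (SL(2, ℤ) ⧸ Γ) ModularGroup.S) +
      Nat.card (Orb (SL(2, ℤ) ⧸ Γ) ST) + Nat.card (Orb (SL(2, ℤ) ⧸ Γ) ModularGroup.T)) =
      Nat.card (SL(2, ℤ) ⧸ Γ) + 2 := by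
  classical
  set o2 := Nat.card (Orb (SL(2, ℤ) ⧸ Γ) ModularGroup.S) with ho2
  set o3 := Nat.card (Orb (SL(2, ℤ) ⧸ Γ) ST) with ho3
  set oT := Nat.card (Orb (SL(2, ℤ) ⧸ Γ) ModularGroup.T) with hoT
  set n := Nat.card (SL(2, ℤ) ⧸ Γ) with hn
  have hle : o2 + o3 + oT ≤ n + 2 := by
    have h := natCard_ellParHoms_mul (A := ZMod 2) hneg
    rw [Nat.card_zmod] at h
    have : 2 ^ (o2 + o3 + oT) ∣ 2 ^ (n + 2) := Dvd.intro_left _ h
    exact Nat.pow_dvd_pow_iff_le_right'.1 this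
  cases nonempty_fintype (SL(2, ℤ) ⧸ Γ)
  have hRR : (MulAction.toPerm ST : Equiv.Perm (SL(2, ℤ) ⧸ Γ)) ^ 3 = 1 :=
    Equiv.ext fun x => ST_smul_three hneg x
  have hsR : Equiv.Perm.sign (MulAction.toPerm ST : Equiv.Perm (SL(2, ℤ) ⧸ Γ)) = 1 := by
    have h := congrArg Equiv.Perm.sign hRR
    rw [map_pow, map_one, pow_succ, Int.units_sq, one_mul] at h
    exact h
  have hsT : Equiv.Perm.sign (MulAction.toPerm ModularGroup.T : Equiv.Perm (SL(2, ℤ) ⧸ Γ)) =
      Equiv.Perm.sign (MulAction.toPerm ModularGroup.S : Equiv.Perm (SL(2, ℤ) ⧸ Γ)) := by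
    have h : (MulAction.toPerm ModularGroup.T : Equiv.Perm (SL(2, ℤ) ⧸ Γ)) =
        (MulAction.toPerm ModularGroup.S : Equiv.Perm (SL(2, ℤ) ⧸ Γ)) * MulAction.toPerm ST := by
      refine Equiv.ext fun x => ?_
      show ModularGroup.T • x = ModularGroup.S • ST • x
      rw [T_eq_neg_S_mul_ST, neg_smul_coset hneg, mul_smul]
    rw [h, map_mul, hsR, mul_one]
  rw [sign_toPerm, ← hn, ← ho3] at hsR
  rw [sign_toPerm, sign_toPerm, ← hn, ← hoT, ← ho2] at hsT
  have h3 : Even (n + o3) := (neg_one_pow_eq_one_iff_even (R := ℤˣ) (by decide)).1 hsR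
  have h2 : Even (n + oT) ↔ Even (n + o2) := by
    rw [← neg_one_pow_eq_one_iff_even (R := ℤˣ) (by decide),
      ← neg_one_pow_eq_one_iff_even (R := ℤˣ) (by decide), hsT]
  have hdef : genusOf Γ = (n + 2 - (o2 + o3 + oT)) / 2 := rfl
  rw [Nat.even_add] at h3 h2
  rw [Nat.even_add] at h2
  have heven : Even (n + 2 - (o2 + o3 + oT)) := by
    rw [Nat.even_sub hle, Nat.even_add, Nat.even_add, Nat.even_add]
    simp only [even_two, iff_true]
    tauto
  obtain ⟨m, hm⟩ := heven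
  omega

theorem natCard_ellParHoms_of_neg_one_mem (hneg : -1 ∈ Γ) :
    Nat.card (ellParHoms Γ A) = Nat.card A ^ (2 * genusOf Γ) := by
  have h := natCard_ellParHoms_mul (A := A) hneg
  rw [← two_mul_genusOf_add hneg, pow_add (a := Nat.card A) (m := 2 * genusOf Γ)] at h
  exact Nat.eq_of_mul_eq_mul_right (pow_pos Nat.card_pos _) h

end Fermat.Agent.Gamma0
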