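import Mathlib.GroupTheory.FiniteAbelian.Basic
import Mathlib.GroupTheory.Abelianization.Defs
import Mathlib.GroupTheory.Finiteness
import Mathlib.GroupTheory.Schreier
import Mathlib.Data.Nat.Prime.Infinite
import Mathlib.LinearAlgebra.Finsupp.Defs
import Fermat.Agent.Gamma0.Count

/-!
# `ellParHoms Γ A ≅ A ^ (2g)` naturally in `A`
-/

open scoped MatrixGroups DirectSum
open ModularGroup

namespace Fermat.Agent.Gamma0

variable (Γ : Subgroup SL(2, ℤ))

/-- images of the non-hyperbolic elements in the abelianisation -/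
def nonHyp : Set (Additive (Abelianization Γ)) :=
  {a | ∃ γ : Γ, ((γ : SL(2, ℤ)) : Matrix (Fin 2) (Fin 2) ℤ).trace ^ 2 ≤ 4 ∧
    Additive.ofMul (Abelianization.of γ) = a}

/-- `Γ^ab` modulo elliptic and parabolic elements (the homology of the compact curve) -/
abbrev H1 : Type := Additive (Abelianization Γ) ⧸ AddSubgroup.closure (nonHyp Γ)

/-- the projection `Γ → H1 Γ` -/
def toH1 : Additive Γ →+ H1 Γ :=
  (QuotientAddGroup.mk' _).comp (MonoidHom.toAdditive Abelianization.of)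

theorem toH1_surjective : Function.Surjective (toH1 Γ) := by
  intro q
  induction q using QuotientAddGroup.induction_on with | _ a => ?_
  obtain ⟨γ, hγ⟩ := QuotientGroup.mk_surjective (Additive.toMul a)
  exact ⟨Additive.ofMul γ, congrArg (QuotientAddGroup.mk' _) (congrArg Additive.ofMul hγ)⟩

theorem H1_fg [Γ.FiniteIndex] : AddGroup.FG (H1 Γ) := by
  have : Group.FG SL(2, ℤ) := Group.fg_iff.2
    ⟨{ModularGroup.S, ModularGroup.T}, SpecialLinearGroup.SL2Z_generators, Set.toFinite _⟩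
  have h1 : Group.FG Γ := Subgroup.fg_of_index_ne_zero Γ
  have h2 : AddGroup.FG (Additive Γ) := GroupFG.iff_add_fg.1 h1
  exact AddGroup.fg_of_surjective (hG := h2) (f := toH1 Γ) (toH1_surjective Γ)

variable {A : Type*} [AddCommGroup A]

theorem comp_toH1_mem (ψ : H1 Γ →+ A) : ψ.comp (toH1 Γ) ∈ ellParHoms Γ A := by
  intro γ hγ
  have h0 : toH1 Γ (Additive.ofMul γ) = 0 :=
    (QuotientAddGroup.eq_zero_iff _).2 (AddSubgroup.subset_closure ⟨γ, hγ, rfl⟩)
  show ψ (toH1 Γ (Additive.ofMul γ)) = 0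
  rw [h0, map_zero]

theorem exists_comp_toH1 {φ : Additive Γ →+ A} (hφ : φ ∈ ellParHoms Γ A) :
    ∃ ψ : H1 Γ →+ A, ψ.comp (toH1 Γ) = φ := by
  let g : Additive (Abelianization Γ) →+ A :=
    MonoidHom.toAdditiveLeft (Abelianization.lift (AddMonoidHom.toMultiplicativeRight φ))
  have hg : ∀ γ : Γ, g (Additive.ofMul (Abelianization.of γ)) = φ (Additive.ofMul γ) := by
    intro γ
    simp [g]
  refine ⟨QuotientAddGroup.lift _ g ?_, AddMonoidHom.ext fun γ => ?_⟩
  · rw [AddSubgroup.closure_le]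
    rintro a ⟨γ, hγ, rfl⟩
    show g _ = 0
    rw [hg]
    exact hφ γ hγ
  · exact hg (Additive.toMul γ)

/-- `Hom(H1 Γ, A) = ellParHoms Γ A` -/
noncomputable def homH1Equiv : (H1 Γ →+ A) ≃ ellParHoms Γ A :=
  Equiv.ofBijective (fun ψ => ⟨ψ.comp (toH1 Γ), comp_toH1_mem Γ ψ⟩)
    ⟨fun ψ ψ' h => by
      have := Subtype.ext_iff.1 h
      refine AddMonoidHom.ext fun q => ?_
      obtain ⟨γ, rfl⟩ := toH1_surjective Γ q
      exact DFunLike.congr_fun this γ,
    fun φ => (exists_comp_toH1 Γ φ.2).imp fun ψ h => Subtype.ext h⟩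

theorem natCard_hom_H1 [Γ.FiniteIndex] (hneg : -1 ∈ Γ) [Finite A] :
    Nat.card (H1 Γ →+ A) = Nat.card A ^ (2 * genusOf Γ) := by
  rw [Nat.card_congr (homH1Equiv Γ), natCard_ellParHoms_of_neg_one_mem hneg]

/-- `Hom(ℤⁿ, A) ≅ Aⁿ` -/
theorem natCard_hom_finsupp (n : ℕ) :
    Nat.card ((Fin n →₀ ℤ) →+ A) = Nat.card A ^ n := by
  rw [Nat.card_congr (Finsupp.liftAddHom (α := Fin n) (M := ℤ) (N := A)).symm.toEquiv, Nat.card_fun,
    Nat.card_congr (zmultiplesHom A).symm, Nat.card_fin]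

theorem H1_equiv [Γ.FiniteIndex] (hneg : -1 ∈ Γ) :
    Nonempty (H1 Γ ≃+ (Fin (2 * genusOf Γ) →₀ ℤ)) := by
  classical
  have := H1_fg Γ
  obtain ⟨n, ι, hι, p, hp, e, ⟨f⟩⟩ := AddCommGroup.equiv_free_prod_directSum_zmod (H1 Γ)
  let D := ⨁ i : ι, ZMod (p i ^ e i)
  -- a prime coprime to the torsion
  obtain ⟨ℓ, hℓle, hℓ⟩ := Nat.exists_infinite_primes (∑ i, p i + 1)
  have card_hom : ∀ q : ℕ, q.Prime →
      q ^ n * Nat.card (D →+ ZMod q) = q ^ (2 * genusOf Γ) := by
    intro q hq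
    have := Fact.mk hq
    have h := natCard_hom_H1 Γ (A := ZMod q) hneg
    rw [Nat.card_congr f.addMonoidHomCongrLeftEquiv, Nat.card_zmod] at h
    rw [← h, ← Nat.card_congr (⟨fun x => x.1.coprod x.2,
      fun ψ => (ψ.comp (.inl _ _), ψ.comp (.inr _ _)), fun x => Prod.ext
        (AddMonoidHom.coprod_comp_inl _ _) (AddMonoidHom.coprod_comp_inr _ _),
      AddMonoidHom.coprod_unique⟩ : ((Fin n →₀ ℤ) →+ ZMod q) × (D →+ ZMod q) ≃ _),
      Nat.card_prod, natCard_hom_finsupp, Nat.card_zmod]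
  have hDℓ : Nat.card (D →+ ZMod ℓ) = 1 := by
    rw [Nat.card_eq_one_iff_unique]
    refine ⟨⟨fun φ ψ => DirectSum.addHom_ext' fun i => AddMonoidHom.ext fun x => ?_⟩, ⟨0⟩⟩
    have := Fact.mk hℓ
    have hne : p i ≠ ℓ := fun h => by
      have := Finset.single_le_sum (f := p) (fun j _ => Nat.zero_le _) (Finset.mem_univ i)
      omega
    suffices hzero : ∀ χ : ZMod (p i ^ e i) →+ ZMod ℓ, χ x = 0 by rw [hzero, hzero]
    intro χ
    have h1 : (p i ^ e i) • χ x = 0 := by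
      rw [← map_nsmul, nsmul_eq_mul, ZMod.natCast_self, zero_mul, map_zero]
    rw [nsmul_eq_mul, mul_eq_zero] at h1
    refine h1.resolve_left fun h0 => ?_
    rw [CharP.cast_eq_zero_iff (ZMod ℓ) ℓ] at h0
    exact hne ((Nat.prime_dvd_prime_iff_eq hℓ (hp i)).1 (hℓ.dvd_of_dvd_pow h0)).symm
  have hn : n = 2 * genusOf Γ := by
    have h := card_hom ℓ hℓ
    rw [hDℓ, mul_one] at h
    exact Nat.pow_right_injective hℓ.two_le h
  subst hn
  have he : ∀ i, e i = 0 := fun i => by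
    by_contra he
    have := Fact.mk (hp i)
    obtain ⟨hs, -⟩ := Nat.card_eq_one_iff_unique.1 (Nat.eq_of_mul_eq_mul_left
      (pow_pos (hp i).pos _) ((card_hom (p i) (hp i)).trans (mul_one _).symm))
    have h := DFunLike.congr_fun (hs.elim ((ZMod.castHom (dvd_pow_self (p i) he) (ZMod (p i))).toAddMonoidHom.comp
      (DFinsupp.evalAddMonoidHom i)) 0) (DirectSum.of (fun j => ZMod (p j ^ e j)) i 1)
    simp [DirectSum.of, DFinsupp.evalAddMonoidHom, DFinsupp.coeFnAddMonoidHom, DFinsupp.singleAddHom,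
      ZMod.cast_one (dvd_pow_self (p i) he)] at h
  have : ∀ i, Subsingleton (ZMod (p i ^ e i)) := fun i => by rw [he i, pow_zero]; infer_instance
  have : Unique D := { default := 0, uniq := fun a => DFinsupp.ext fun i => Subsingleton.elim _ _ }
  exact ⟨f.trans AddEquiv.prodUnique⟩

/-- There are `2g` elements of `Γ` on which any elliptic-parabolic-killing homomorphism is freely
determined. -/
theorem exists_basis_of_neg_one_mem.{w} [Γ.FiniteIndex] (hneg : -1 ∈ Γ) :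
    ∃ γ : Fin (2 * genusOf Γ) → Γ, ∀ (B : Type w) [AddCommGroup B],
      Function.Bijective fun (φ : ellParHoms Γ B) i => (φ : Additive Γ →+ B) (Additive.ofMul (γ i)) := by
  obtain ⟨f⟩ := H1_equiv Γ hneg
  choose γ hγ using fun i => toH1_surjective Γ (f.symm (Finsupp.single i 1))
  refine ⟨fun i => Additive.toMul (γ i), fun B _ => ?_⟩
  have key : ∀ (ψ : H1 Γ →+ B) (i), ψ.comp (toH1 Γ) (γ i) = ψ (f.symm (Finsupp.single i 1)) :=
    fun ψ i => congrArg ψ (hγ i)
  constructor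
  · intro φ φ' h
    obtain ⟨ψ, hψ⟩ := exists_comp_toH1 Γ φ.2
    obtain ⟨ψ', hψ'⟩ := exists_comp_toH1 Γ φ'.2
    have hψeq : ψ.comp f.symm.toAddMonoidHom = ψ'.comp f.symm.toAddMonoidHom := by
      refine Finsupp.addHom_ext' fun i => AddMonoidHom.ext_int ?_
      show ψ (f.symm (Finsupp.single i 1)) = ψ' (f.symm (Finsupp.single i 1))
      rw [← key, ← key, hψ, hψ']
      exact congrFun h i
    refine Subtype.ext ?_
    rw [← hψ, ← hψ']
    congr 1
    refine AddMonoidHom.ext fun q => ?_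
    have := DFunLike.congr_fun hψeq (f q)
    simpa using this
  · intro b
    let ψ : H1 Γ →+ B :=
      (Finsupp.liftAddHom fun i => zmultiplesHom B (b i)).comp f.toAddMonoidHom
    refine ⟨⟨ψ.comp (toH1 Γ), comp_toH1_mem Γ ψ⟩, funext fun i => ?_⟩
    show ψ.comp (toH1 Γ) (γ i) = b i
    rw [key]
    simp [ψ]

end Fermat.Agent.Gamma0
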